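import Fermat.Agent.CAR.DESC.Fix
import Fermat.Agent.DSC.Defs

/-!
# CAR / DESC : the field `E = F_K` of `H`-fixed elements of `FL ℚ̄ N`, as a subfield of `FL ℚ̄ N` and as an algebra over
`K = ℚ̄^H = DSC.EH H`;  the valuation ring `O = A ∩ K`;  `O[X] → E`.   (definitions + bridges, no sorry)
-/

set_option autoImplicit false
noncomputable section

namespace Fermat.Agent.CAR.DESC

open ModularCurve Polynomial Fermat.Agent.GAL Fermat.Agent.GR Fermat.Agent.DSC

variable (H : Subgroup GQ) (N : ℕ)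

theorem fixC_iff_mem_EH {H : Subgroup GQ} {c : Qb} : FixC (H : Set GQ) c ↔ c ∈ EH H := mem_EH.symm

/-- `E = (FL ℚ̄ N)^H` as a subfield of `FL ℚ̄ N`. -/
def EF : Subfield (FL Qb N) where
  carrier := {z | FixS (H : Set GQ) (z : LaurentSeries Qb)}
  mul_mem' := fun ha hb => FixS.mul ha hb
  one_mem' := FixS.one
  add_mem' := fun ha hb => FixS.add ha hb
  zero_mem' := FixS.zero
  neg_mem' := fun ha => FixS.neg ha
  inv_mem' := fun _ ha => FixS.inv ha

variable {H N}

theorem mem_EF {z : FL Qb N} : z ∈ EF H N ↔ FixS (H : Set GQ) (z : LaurentSeries Qb) := Iff.rfl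

theorem mem_EF_iff_mem_FH {z : FL Qb N} : z ∈ EF H N ↔ (z : LaurentSeries Qb) ∈ FH H N :=
  ⟨fun h => ⟨z.2, h⟩, fun h => h.2⟩

theorem coe_algebraMap_FL (a : Qb) :
    ((algebraMap Qb (FL Qb N) a : FL Qb N) : LaurentSeries Qb) = HahnSeries.C a := by
  have h1 : ((algebraMap Qb (FL Qb N) a : FL Qb N) : LaurentSeries Qb)
      = algebraMap Qb (LaurentSeries Qb) a := rfl
  rw [h1, GR.algebraMap_eq_C]

theorem algebraMap_mem_EF {a : Qb} (ha : a ∈ EH H) : algebraMap Qb (FL Qb N) a ∈ EF H N := by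
  rw [mem_EF, coe_algebraMap_FL]
  exact FixC.C (fixC_iff_mem_EH.2 ha)

variable (H N)

/-- `K → E`. -/
def cEF : EH H →+* EF H N where
  toFun a := ⟨algebraMap Qb (FL Qb N) (a : Qb), algebraMap_mem_EF a.2⟩
  map_one' := Subtype.ext (map_one _)
  map_mul' _ _ := Subtype.ext (map_mul _ _ _)
  map_zero' := Subtype.ext (map_zero _)
  map_add' _ _ := Subtype.ext (map_add _ _ _)

instance algEF : Algebra (EH H) (EF H N) := (cEF H N).toAlgebra

theorem coe_algebraMap_EF (a : EH H) :
    ((algebraMap (EH H) (EF H N) a : EF H N) : FL Qb N) = algebraMap Qb (FL Qb N) (a : Qb) := rfl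

variable (A : ValuationSubring Qb)

/-- `O = A ∩ K`, a valuation ring of `K = ℚ̄^H`. -/
def OH : ValuationSubring (EH H) := A.comap (algebraMap (EH H) Qb)

variable {A H}

theorem mem_OH {a : EH H} : a ∈ OH H A ↔ (a : Qb) ∈ A := Iff.rfl

variable (A H) {N}

/-- `O[X] → E`, `X ↦ u`. -/
def iO (u : EF H N) : (OH H A)[X] →+* EF H N :=
  eval₂RingHom ((algebraMap (EH H) (EF H N)).comp (OH H A).subtype) u

theorem iO_C (u : EF H N) (a : OH H A) : iO H A u (C a) = algebraMap (EH H) (EF H N) (a : EH H) := by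
  simp [iO]

theorem iO_X (u : EF H N) : iO H A u X = u := by
  simp [iO]

/-- the polynomial over `ℚ̄` underlying a polynomial over `O`. -/
def upO : (OH H A)[X] →+* Qb[X] := mapRingHom ((algebraMap (EH H) Qb).comp (OH H A).subtype)

theorem coe_iO (u : EF H N) (p : (OH H A)[X]) :
    ((iO H A u p : EF H N) : FL Qb N) = aeval (u : FL Qb N) (upO H A p) := by
  have : (EF H N).subtype.comp (iO H A u) =
      ((aeval (u : FL Qb N) : Qb[X] →ₐ[Qb] FL Qb N) : Qb[X] →+* FL Qb N).comp (upO H A) := by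
    apply Polynomial.ringHom_ext
    · intro a
      simp only [RingHom.comp_apply, iO_C, upO, coe_mapRingHom, map_C, RingHom.coe_coe, aeval_C]
      rfl
    · simp only [RingHom.comp_apply, iO_X, upO, coe_mapRingHom, map_X, RingHom.coe_coe, aeval_X]
      rfl
  exact DFunLike.congr_fun this p

end Fermat.Agent.CAR.DESC
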