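import Fermat.Agent.CAR.DESC.Fix

/-!
# CAR / DESC / B5 : orbit products: a monic polynomial over `A[X]` divides an `H`-fixed monic polynomial over `A[X]`
(package DESC-B5;  pure algebra of `ℚ̄[X][Y]`)
-/

set_option autoImplicit false
noncomputable section

namespace Fermat.Agent.CAR.DESC

open Polynomial Fermat.Agent.GAL

/-- the action of `τ` on `ℚ̄[X][Y]`. -/
def gal2 (τ : GQ) : Qb[X][X] →+* Qb[X][X] := mapRingHom (mapRingHom (τ : Qb →+* Qb))

theorem gal2_coeff (τ : GQ) (f : Qb[X][X]) (i j : ℕ) :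
    ((gal2 τ f).coeff i).coeff j = τ ((f.coeff i).coeff j) := by
  simp [gal2]

theorem gal2_apply (τ : GQ) (f : Qb[X][X]) :
    gal2 τ f = f.map (mapRingHom (τ : Qb →+* Qb)) := rfl

theorem gal2_ext {f g : Qb[X][X]} (h : ∀ i j, (f.coeff i).coeff j = (g.coeff i).coeff j) : f = g := by
  ext i j
  exact h i j

theorem gal2_mul (σ τ : GQ) (f : Qb[X][X]) : gal2 (σ * τ) f = gal2 σ (gal2 τ f) := by
  apply gal2_ext
  intro i j
  rw [gal2_coeff, gal2_coeff, gal2_coeff]
  rfl

theorem gal2_one (f : Qb[X][X]) : gal2 1 f = f := by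
  apply gal2_ext
  intro i j
  rw [gal2_coeff]
  rfl

theorem gal2_injective (σ : GQ) : Function.Injective (gal2 σ) := by
  intro f g h
  apply gal2_ext
  intro i j
  have h1 := congrArg (fun p : Qb[X][X] => (p.coeff i).coeff j) h
  simp only [gal2_coeff] at h1
  exact σ.injective h1

/-- polynomials of bounded degree with coefficients in a finite set -/
theorem orb_finite_poly {R : Type*} [Semiring R] (d : ℕ) {U : Set R} (h : U.Finite) :
    {f : R[X] | f.natDegree ≤ d ∧ ∀ i, f.coeff i ∈ U}.Finite := by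
  let π : R[X] → Fin (d + 1) → R := fun f i => f.coeff i
  refine ((Set.Finite.pi fun _ : Fin (d + 1) => h).subset ?_).of_finite_image
    (f := π) ?_
  · rintro _ ⟨f, hf, rfl⟩ i -
    exact hf.2 i
  · intro x hx y hy hxy
    ext i
    by_cases hi : i < d + 1
    · exact congrFun hxy ⟨i, hi⟩
    · rw [coeff_eq_zero_of_natDegree_lt (by have := hx.1; omega),
        coeff_eq_zero_of_natDegree_lt (by have := hy.1; omega)]

/-- the set of all conjugates of all coefficients is finite -/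
theorem orb_finite_conj (f : Qb[X][X]) :
    {y : Qb | ∃ (i j : ℕ) (τ : GQ), y = τ ((f.coeff i).coeff j)}.Finite := by
  classical
  have hfin : (⋃ c ∈ (insert 0 (f.coeffs.biUnion fun p => p.coeffs) : Finset Qb),
      (minpoly ℚ c).rootSet Qb).Finite :=
    Set.Finite.biUnion (Finset.finite_toSet _) fun c _ => rootSet_finite _ _
  refine hfin.subset ?_
  rintro _ ⟨i, j, τ, rfl⟩
  have hmem : (f.coeff i).coeff j ∈
      (insert 0 (f.coeffs.biUnion fun p => p.coeffs) : Finset Qb) := by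
    by_cases h0 : (f.coeff i).coeff j = 0
    · rw [h0]; exact Finset.mem_insert_self _ _
    · refine Finset.mem_insert_of_mem (Finset.mem_biUnion.2 ⟨f.coeff i, ?_, ?_⟩)
      · apply coeff_mem_coeffs
        intro h1
        rw [h1, coeff_zero] at h0
        exact h0 rfl
      · exact coeff_mem_coeffs h0
  refine Set.mem_biUnion hmem ?_
  have halg : Algebra.IsAlgebraic ℚ Qb := AlgebraicClosure.isAlgebraic ℚ
  have hint : IsIntegral ℚ ((f.coeff i).coeff j) := (Algebra.IsAlgebraic.isAlgebraic _).isIntegral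
  rw [mem_rootSet_of_ne (minpoly.ne_zero hint)]
  have h1 : aeval (τ ((f.coeff i).coeff j)) (minpoly ℚ ((f.coeff i).coeff j)) =
      τ (aeval ((f.coeff i).coeff j) (minpoly ℚ ((f.coeff i).coeff j))) :=
    aeval_algHom_apply (τ : Qb →ₐ[ℚ] Qb) _ _
  rw [h1, minpoly.aeval, map_zero]

/-- the orbit is finite -/
theorem orb_finite (f : Qb[X][X]) : {g : Qb[X][X] | ∃ τ : GQ, g = gal2 τ f}.Finite := by
  classical
  set N' := (Finset.range (f.natDegree + 1)).sup fun i => (f.coeff i).natDegree with hN'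
  refine (orb_finite_poly f.natDegree (orb_finite_poly N' (orb_finite_conj f))).subset ?_
  rintro _ ⟨τ, rfl⟩
  refine ⟨natDegree_map_le, fun i => ⟨?_, fun j => ⟨i, j, τ, gal2_coeff τ f i j⟩⟩⟩
  rw [gal2_apply, coeff_map]
  refine le_trans natDegree_map_le ?_
  by_cases hi : i < f.natDegree + 1
  · exact Finset.le_sup (f := fun i => (f.coeff i).natDegree) (Finset.mem_range.2 hi)
  · rw [coeff_eq_zero_of_natDegree_lt (by omega), natDegree_zero]
    exact Nat.zero_le _

/-- polynomials with all coefficients in `A` -/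
theorem orb_mem_lifts_iff (A : ValuationSubring Qb) (g : Qb[X][X]) :
    g ∈ lifts (mapRingHom A.subtype) ↔ ∀ i j, (g.coeff i).coeff j ∈ A := by
  rw [lifts_iff_coeff_lifts]
  refine forall_congr' fun i => ?_
  have h1 : g.coeff i ∈ Set.range (mapRingHom A.subtype) ↔ g.coeff i ∈ lifts A.subtype := by
    rw [mem_lifts]
    rfl
  rw [h1, lifts_iff_coeff_lifts]
  refine forall_congr' fun j => ?_
  constructor
  · rintro ⟨a, ha⟩
    rw [← ha]
    exact a.2
  · intro h
    exact ⟨⟨_, h⟩, rfl⟩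

/-- PROOF.  The orbit `Ω = {gal2 τ f | τ ∈ H}` is finite: `gal2 τ f` is determined by the finitely many numbers
`τ ((f.coeff i).coeff j)`, `i ≤ natDegree f`, `j ≤ sup_i natDegree (f.coeff i)`, each of which has finitely many conjugates
(roots of `minpoly ℚ _`).  [Cleanest: the map `g ↦ (fun (i, j) => (g.coeff i).coeff j)` restricted to the finite box is injective on
`{g | natDegree g ≤ N ∧ ∀ i, natDegree (g.coeff i) ≤ N'}`, and the image of `Ω` lies in a finite product `Set.Finite.pi`.]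
`g := ∏_{h ∈ Ω} h`.  Monic (`monic_prod_of_monic`, `Monic.map`); coefficients in `A`: the polynomials with all coefficients in `A` form the
subring `(A.toSubring.map? )` = range of `mapRingHom (mapRingHom A.subtype)` (use `Subring.prod_mem` for
`(mapRingHom (mapRingHom A.subtype)).range`, and `hHA` to see `gal2 τ f` in it; membership ↔ coefficientwise: `Polynomial.mem_lifts`-style,
`Polynomial.lifts_iff_coeff_lifts`);  fixed: `gal2 σ` permutes `Ω` (`H` a subgroup, `gal2 σ` injective), so `gal2 σ g = g`, then `gal2_coeff`;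
`f ∈ Ω` (`τ = 1`) so `f ∣ g` (`Finset.dvd_prod_of_mem`). -/
theorem exists_fixed_monic (H : Subgroup GQ) (A : ValuationSubring Qb)
    (hHA : ∀ τ ∈ H, ∀ a ∈ A, τ a ∈ A) (f : Qb[X][X]) (hf : f.Monic)
    (hfA : ∀ i j, (f.coeff i).coeff j ∈ A) :
    ∃ g : Qb[X][X], g.Monic ∧ (∀ i j, (g.coeff i).coeff j ∈ A) ∧
      (∀ i j, FixC (H : Set GQ) ((g.coeff i).coeff j)) ∧ f ∣ g := by
  classical
  have hΩ : {g : Qb[X][X] | ∃ τ ∈ H, g = gal2 τ f}.Finite :=
    (orb_finite f).subset fun g ⟨τ, _, h⟩ => ⟨τ, h⟩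
  have hmem : ∀ g, g ∈ hΩ.toFinset ↔ ∃ τ ∈ H, g = gal2 τ f := fun g => hΩ.mem_toFinset
  have hfix : ∀ σ ∈ H, gal2 σ (∏ h ∈ hΩ.toFinset, h) = ∏ h ∈ hΩ.toFinset, h := by
    intro σ hσ
    rw [map_prod]
    refine Finset.prod_bij (fun h _ => gal2 σ h) ?_ ?_ ?_ (fun _ _ => rfl)
    · intro h hh
      obtain ⟨τ, hτ, rfl⟩ := (hmem h).1 hh
      exact (hmem _).2 ⟨σ * τ, H.mul_mem hσ hτ, (gal2_mul σ τ f).symm⟩
    · intro h _ h' _ e
      exact gal2_injective σ e
    · intro h hh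
      obtain ⟨τ, hτ, rfl⟩ := (hmem h).1 hh
      refine ⟨gal2 (σ⁻¹ * τ) f, (hmem _).2 ⟨σ⁻¹ * τ, H.mul_mem (H.inv_mem hσ) hτ, rfl⟩, ?_⟩
      rw [← gal2_mul, mul_inv_cancel_left]
  refine ⟨∏ h ∈ hΩ.toFinset, h, ?_, ?_, ?_, ?_⟩
  · refine monic_prod_of_monic _ _ fun h hh => ?_
    obtain ⟨τ, -, rfl⟩ := (hmem h).1 hh
    exact hf.map _
  · rw [← orb_mem_lifts_iff]
    refine Subsemiring.prod_mem _ fun h hh => ?_
    obtain ⟨τ, hτ, rfl⟩ := (hmem h).1 hh
    rw [orb_mem_lifts_iff]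
    intro i j
    rw [gal2_coeff]
    exact hHA τ hτ _ (hfA i j)
  · intro i j τ hτ
    rw [← gal2_coeff, hfix τ hτ]
  · exact Finset.dvd_prod_of_mem _ ((hmem f).2 ⟨1, H.one_mem, (gal2_one f).symm⟩)

end Fermat.Agent.CAR.DESC
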