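import Fermat.Agent.CAR.DESC.EF
import Fermat.Agent.CAR.DESC.OrbProd
import Fermat.Agent.GAL.KL.Defs

/-!
# CAR / DESC / N2 : descent of integrality: from `A[u]` to `O[u]`, from `ℚ̄[u]` to `K[u]`;  Galois stability of `IsInt`  (package DESC-N2)
-/

set_option autoImplicit false
noncomputable section

namespace Fermat.Agent.CAR.DESC

open Polynomial Fermat.Agent.GAL Fermat.Agent.GAL.KL Fermat.Agent.DSC

variable {H : Subgroup GQ} {N : ℕ} (A : ValuationSubring Qb)

/-- `coe_iO` as an identity of ring homomorphisms. -/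
theorem subtype_comp_iO (u : EF H N) : (EF H N).subtype.comp (iO H A u) =
    ((aeval (u : FL Qb N) : Qb[X] →ₐ[Qb] FL Qb N) : Qb[X] →+* FL Qb N).comp (upO H A) :=
  RingHom.ext fun p => coe_iO H A u p

/-- PROOF.  `exists_fixed_monic H A hHA f hf hfA` gives a monic `g`, `f ∣ g` (so `eval₂ _ z g = 0`: `eval₂_mul`/`Polynomial.eval₂_eq_zero_of_dvd_of_eval₂_eq_zero`),
all coefficients in `A` and fixed by `H`, i.e. in the range of `φ := (algebraMap (EH H) ℚ̄).comp (OH H A).subtype` (`fixC_iff_mem_EH`, `mem_OH`).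
So every `g.coeff i` lies in `Polynomial.lifts φ` (`Polynomial.lifts_iff_coeff_lifts`) `= range (upO H A)` and `g ∈ lifts (upO H A)`;
`Polynomial.lifts_and_natDegree_eq_and_monic` gives a MONIC `g' : (OH H A)[X][X]` with `g'.map (upO H A) = g`.
`eval₂ (iO H A u) z g' = 0`: apply the injective `(EF H N).subtype`, `Polynomial.hom_eval₂`, `coe_iO` (as a ring hom identity
`(EF H N).subtype.comp (iO H A u) = (aeval u).comp (upO H A)`), `Polynomial.eval₂_map`. -/
theorem isIntegralElem_iO (hHA : ∀ τ ∈ H, ∀ a ∈ A, τ a ∈ A) (u z : EF H N) (f : Qb[X][X])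
    (hf : f.Monic) (hfA : ∀ i j, (f.coeff i).coeff j ∈ A)
    (h0 : eval₂ ((aeval (u : FL Qb N) : Qb[X] →ₐ[Qb] FL Qb N) : Qb[X] →+* FL Qb N) (z : FL Qb N) f = 0) :
    (iO H A u).IsIntegralElem z := by
  obtain ⟨g, hg, hgA, hgF, hfg⟩ := exists_fixed_monic H A hHA f hf hfA
  have hg0 : eval₂ ((aeval (u : FL Qb N) : Qb[X] →ₐ[Qb] FL Qb N) : Qb[X] →+* FL Qb N)
      (z : FL Qb N) g = 0 := eval₂_eq_zero_of_dvd_of_eval₂_eq_zero _ _ hfg h0
  have hlift : g ∈ lifts (upO H A) := by
    rw [lifts_iff_coeff_lifts]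
    intro i
    have h1 : g.coeff i ∈ lifts ((algebraMap (EH H) Qb).comp (OH H A).subtype) := by
      rw [lifts_iff_coeff_lifts]
      intro j
      exact ⟨⟨⟨_, fixC_iff_mem_EH.1 (hgF i j)⟩, hgA i j⟩, rfl⟩
    rw [mem_lifts] at h1
    exact h1
  obtain ⟨g', hg'1, -, hg'm⟩ := lifts_and_natDegree_eq_and_monic hlift hg
  refine ⟨g', hg'm, ?_⟩
  apply (EF H N).subtype_injective
  rw [map_zero, hom_eval₂, subtype_comp_iO, ← eval₂_map, hg'1]
  exact hg0

/-- conversely.  PROOF: map the monic polynomial by `upO H A`; `coe_iO`. -/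
theorem isInt_of_isIntegralElem_iO (u z : EF H N) (h : (iO H A u).IsIntegralElem z) :
    IsInt Qb (u : FL Qb N) (z : FL Qb N) := by
  obtain ⟨p, hp, h0⟩ := h
  refine ⟨p.map (upO H A), hp.map _, ?_⟩
  have h1 := congrArg (EF H N).subtype h0
  rw [map_zero, hom_eval₂, subtype_comp_iO, ← eval₂_map] at h1
  exact h1

/-- `aeval` over `K` versus `aeval` over `ℚ̄`. -/
theorem subtype_comp_aeval_EH (u : EF H N) :
    (EF H N).subtype.comp ((aeval u : (EH H)[X] →ₐ[EH H] EF H N) : (EH H)[X] →+* EF H N) =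
    ((aeval (u : FL Qb N) : Qb[X] →ₐ[Qb] FL Qb N) : Qb[X] →+* FL Qb N).comp
      (mapRingHom (algebraMap (EH H) Qb)) := by
  apply Polynomial.ringHom_ext
  · intro a
    simp only [RingHom.comp_apply, coe_mapRingHom, map_C, RingHom.coe_coe, aeval_C]
    rfl
  · simp only [RingHom.comp_apply, coe_mapRingHom, map_X, RingHom.coe_coe, aeval_X]
    rfl

/-- `iO` factors through `K[X]`. -/
theorem iO_eq_aeval_comp (u : EF H N) : iO H A u =
    ((aeval u : (EH H)[X] →ₐ[EH H] EF H N) : (EH H)[X] →+* EF H N).comp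
      (mapRingHom (OH H A).subtype) := by
  apply Polynomial.ringHom_ext
  · intro a
    simp only [RingHom.comp_apply, coe_mapRingHom, map_C, RingHom.coe_coe, aeval_C, iO_C]
    rfl
  · simp only [RingHom.comp_apply, coe_mapRingHom, map_X, RingHom.coe_coe, aeval_X, iO_X]

/-- integrality over `K[u]` and over `ℚ̄[u]` agree on `E`.
PROOF. `→`: map the coefficients (`aeval` over `EH H` versus over `ℚ̄`: `coe_algebraMap_EF`, `Polynomial.ringHom_ext`).
`←`: `isIntegralElem_iO` with `A := ⊤` (`hHA`, `hfA` trivial: `ValuationSubring.mem_top`), then every element of `(OH H ⊤)[X]` gives a polynomial over `EH H`. -/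
theorem isInt_EH_iff (u z : EF H N) :
    IsInt (EH H) u z ↔ IsInt Qb (u : FL Qb N) (z : FL Qb N) := by
  constructor
  · rintro ⟨p, hp, h0⟩
    refine ⟨p.map (mapRingHom (algebraMap (EH H) Qb)), hp.map _, ?_⟩
    have h1 := congrArg (EF H N).subtype h0
    rw [map_zero, hom_eval₂, subtype_comp_aeval_EH, ← eval₂_map] at h1
    exact h1
  · rintro ⟨f, hf, h0⟩
    obtain ⟨g, hg, hg0⟩ := isIntegralElem_iO (⊤ : ValuationSubring Qb)
      (fun _ _ _ _ => ValuationSubring.mem_top _) u z f hf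
      (fun _ _ => ValuationSubring.mem_top _) h0
    refine ⟨g.map (mapRingHom (OH H ⊤).subtype), hg.map _, ?_⟩
    rw [eval₂_map, ← iO_eq_aeval_comp]
    exact hg0

/-- Galois conjugation preserves integrality.
PROOF: `h = ⟨p, monic, eval₂ (aeval u) y p = 0⟩`; `p' := p.map (mapRingHom τ)`; push the identity to `ℚ̄((q))` by the injective coercion, apply the ring hom `galS τ`
(`Polynomial.hom_eval₂` twice); on `ℚ̄[X]`: `galS τ (aeval u r) = aeval (galS τ u) (r.map τ)` (`Polynomial.ringHom_ext`, `galS_C`, `coe_algebraMap_FL`). -/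
theorem isInt_gal (τ : GQ) {u y u' y' : FL Qb N} (hu : (u' : LaurentSeries Qb) = galS τ u)
    (hy : (y' : LaurentSeries Qb) = galS τ y) (h : IsInt Qb u y) : IsInt Qb u' y' := by
  obtain ⟨p, hp, h0⟩ := h
  have key : (galS τ).comp ((FL Qb N).subtype.comp
        ((aeval u : Qb[X] →ₐ[Qb] FL Qb N) : Qb[X] →+* FL Qb N)) =
      ((FL Qb N).subtype.comp ((aeval u' : Qb[X] →ₐ[Qb] FL Qb N) : Qb[X] →+* FL Qb N)).comp
        (mapRingHom (τ : Qb →+* Qb)) := by
    apply Polynomial.ringHom_ext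
    · intro a
      simp only [RingHom.comp_apply, coe_mapRingHom, map_C, RingHom.coe_coe, aeval_C]
      change galS τ ((algebraMap Qb (FL Qb N) a : FL Qb N) : LaurentSeries Qb) =
        ((algebraMap Qb (FL Qb N) (τ a) : FL Qb N) : LaurentSeries Qb)
      rw [coe_algebraMap_FL, coe_algebraMap_FL, galS_C]
    · simp only [RingHom.comp_apply, coe_mapRingHom, map_X, RingHom.coe_coe, aeval_X]
      exact hu.symm
  refine ⟨p.map (mapRingHom (τ : Qb →+* Qb)), hp.map _, ?_⟩
  apply (FL Qb N).subtype_injective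
  have h1 := congrArg (fun x => galS τ ((FL Qb N).subtype x)) h0
  simp only [map_zero] at h1
  rw [hom_eval₂, hom_eval₂, key] at h1
  rw [map_zero, hom_eval₂, eval₂_map]
  have h2 : (FL Qb N).subtype y' = galS τ ((FL Qb N).subtype y) := hy
  rw [h2]
  exact h1

end Fermat.Agent.CAR.DESC
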