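import Fermat.Agent.CAR.DESC.Gens
import Fermat.Agent.CAR.DESC.IntO
import Fermat.Agent.GAL.KL.BasicInt

/-!
# CAR / DESC / HG-b : descent of the identity `(∑ ∏ φ) w = 1` from `FL ℚ̄ N` to `E = F_K`  (package DESC-HGb)
-/

set_option autoImplicit false
noncomputable section

namespace Fermat.Agent.CAR.DESC

open ModularCurve Polynomial Fermat.Agent.GAL Fermat.Agent.GAL.KL Fermat.Agent.DSC

variable {H : Subgroup GQ} {N : ℕ}

/-- `I_u(w)` as a `ℚ̄`-subspace of `ℚ̄((q))`. -/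
def IIS (u : FL Qb N) (n : ℕ) (hn : 0 < n) (w : FL Qb N) : Submodule Qb (LaurentSeries Qb) where
  carrier := {y | ∃ x : FL Qb N, (x : LaurentSeries Qb) = y ∧ x ∈ II Qb u n w}
  add_mem' := by
    rintro _ _ ⟨x, rfl, hx⟩ ⟨y, rfl, hy⟩
    exact ⟨x + y, rfl, II.add hn hx hy⟩
  zero_mem' := ⟨0, rfl, by
    show IsInt Qb u ((0 : FL Qb N) ^ n * w)
    rw [zero_pow hn.ne', zero_mul]; exact IsInt.zero⟩
  smul_mem' := by
    rintro a _ ⟨x, rfl, hx⟩
    refine ⟨algebraMap Qb (FL Qb N) a * x, ?_, II.mul (IsInt.algebraMap a) hx⟩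
    rw [← HahnSeries.C_mul_eq_smul, ← coe_algebraMap_FL (N := N)]
    rfl

/-- `IIS` is stable under `H` when `u, w` are fixed.  PROOF: `galS τ x ∈ FL` (`coeffMap_mem_laurentBaseChange`), call it `x'`; `isInt_gal τ (u' := u) (y' := x' ^ n * w)`. -/
theorem galS_mem_IIS (u w : EF H N) {n : ℕ} (hn : 0 < n) {τ : GQ} (hτ : τ ∈ H)
    {y : LaurentSeries Qb} (hy : y ∈ IIS (u : FL Qb N) n hn w) :
    galS τ y ∈ IIS (u : FL Qb N) n hn w := by
  obtain ⟨x, rfl, hx⟩ := hy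
  let x' : FL Qb N := ⟨galS τ x, coeffMap_mem_laurentBaseChange τ x.2⟩
  refine ⟨x', rfl, ?_⟩
  have hu : (((u : FL Qb N)) : LaurentSeries Qb) = galS τ ((u : FL Qb N) : LaurentSeries Qb) :=
    (u.2 τ hτ).symm
  have hw : galS τ ((w : FL Qb N) : LaurentSeries Qb) = ((w : FL Qb N) : LaurentSeries Qb) :=
    w.2 τ hτ
  refine isInt_gal τ (u := (u : FL Qb N)) (y := x ^ n * (w : FL Qb N)) hu ?_ hx
  show (galS τ x) ^ n * ((w : FL Qb N) : LaurentSeries Qb) =
    galS τ ((x : LaurentSeries Qb) ^ n * ((w : FL Qb N) : LaurentSeries Qb))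
  rw [map_mul, map_pow, hw]

/-- PROOF.  Flatten `φ` to a family indexed by `Fin (m * n)` (`finProdFinEquiv`) and apply `exists_fixed_gens (IIS u n hn w)`: `φ k j = ∑ a, C (c k j a) * ψ a`, `ψ a ∈ IIS` fixed.
Expand `∏ j, ∑ a, …  = ∑ σ : Fin n → Fin s, (∏ j, C (c k j (σ j))) * ∏ j, ψ (σ j)` (`Finset.prod_univ_sum`, `Fintype.piFinset_univ`, `Finset.prod_mul_distrib`).
So `1 = ∑_{(k,σ)} C (d k σ) * M σ`, `M σ := (∏ j, ψ (σ j)) * w` fixed (`FixS.prod`, `FixS.mul`); collect: `1 = ∑ σ, C (∑ k, d k σ) * M σ`.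
`exists_fixed_coeffs` (index `Fin n → Fin s` transported to `Fin m'`, `m' = s ^ n`, by `Fintype.equivFin`) gives fixed `d' σ`.
`ψ' σ j := if j = ⟨0, hn⟩ then C (d' σ) * ψ (σ j) else ψ (σ j)`: an element of `E` (`mem_EF`; it lies in `FL` by the definition of `IIS`), in `II` (`II.mul (IsInt.algebraMap _)`), and
`∏ j, ψ' σ j = C (d' σ) * ∏ j, ψ (σ j)`. -/
theorem exists_sum_prod_fixed (u w : EF H N) {n : ℕ} (hn : 0 < n) {m : ℕ}
    (φ : Fin m → Fin n → FL Qb N) (hφ : ∀ k j, φ k j ∈ II Qb (u : FL Qb N) n (w : FL Qb N))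
    (h : (∑ k, ∏ j, φ k j) * (w : FL Qb N) = 1) :
    ∃ (m' : ℕ) (ψ : Fin m' → Fin n → EF H N),
      (∀ k j, (ψ k j : FL Qb N) ∈ II Qb (u : FL Qb N) n (w : FL Qb N)) ∧
      (∑ k, ∏ j, ψ k j) * w = 1 := by
  classical
  -- the coercion to series
  let ι : EF H N →+* LaurentSeries Qb :=
    ((FL Qb N).val : FL Qb N →+* LaurentSeries Qb).comp (EF H N).subtype
  have hι : Function.Injective ι := fun a b hab => Subtype.ext (Subtype.ext hab)
  let κ : FL Qb N →+* LaurentSeries Qb := ((FL Qb N).val : FL Qb N →+* LaurentSeries Qb)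
  set W : LaurentSeries Qb := ((w : FL Qb N) : LaurentSeries Qb) with hW
  -- fixed generators
  obtain ⟨s, ψ, c, hψ, hc⟩ := exists_fixed_gens (H := H) (N := N) (IIS (u : FL Qb N) n hn w)
    (by rintro _ ⟨x, rfl, -⟩; exact x.2)
    (fun τ hτ y hy => galS_mem_IIS u w hn hτ hy)
    (fun i : Fin (m * n) =>
      ((φ (finProdFinEquiv.symm i).1 (finProdFinEquiv.symm i).2 : FL Qb N) : LaurentSeries Qb))
    (fun i => ⟨_, rfl, hφ _ _⟩)
  have hc' : ∀ k j, ((φ k j : FL Qb N) : LaurentSeries Qb) =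
      ∑ a, HahnSeries.C (c (finProdFinEquiv (k, j)) a) * ψ a := by
    intro k j
    have := hc (finProdFinEquiv (k, j))
    simpa only [Equiv.symm_apply_apply] using this
  -- the expansion
  have hprod : ∀ k, κ (∏ j, φ k j) = ∑ σ : Fin n → Fin s,
      HahnSeries.C (∏ j, c (finProdFinEquiv (k, j)) (σ j)) * ∏ j, ψ (σ j) := by
    intro k
    rw [map_prod]
    have h1 : ∀ j, κ (φ k j) = ∑ a, HahnSeries.C (c (finProdFinEquiv (k, j)) a) * ψ a := hc' k
    simp only [h1]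
    rw [Finset.prod_univ_sum, Fintype.piFinset_univ]
    refine Finset.sum_congr rfl fun σ _ => ?_
    rw [Finset.prod_mul_distrib, map_prod]
  have h1 : (1 : LaurentSeries Qb) = ∑ σ : Fin n → Fin s,
      HahnSeries.C (∑ k, ∏ j, c (finProdFinEquiv (k, j)) (σ j)) * ((∏ j, ψ (σ j)) * W) := by
    have h2 := congrArg κ h
    rw [map_one, map_mul, map_sum] at h2
    simp only [hprod] at h2
    rw [← h2, Finset.sum_comm, Finset.sum_mul]
    refine Finset.sum_congr rfl fun σ _ => ?_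
    rw [map_sum, Finset.sum_mul, Finset.sum_mul]
    refine Finset.sum_congr rfl fun k _ => ?_
    rw [mul_assoc]
    rfl
  -- transport to `Fin m'`
  let e : (Fin n → Fin s) ≃ Fin (Fintype.card (Fin n → Fin s)) := Fintype.equivFin _
  have hWfix : FixS (H : Set GQ) W := w.2
  obtain ⟨c', hc'fix, h3⟩ := exists_fixed_coeffs (H := (H : Set GQ))
    (fun i : Fin (Fintype.card (Fin n → Fin s)) => (∏ j, ψ (e.symm i j)) * W)
    (fun i => (FixS.prod _ fun j _ => (hψ _).2).mul hWfix) FixS.one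
    (fun i => ∑ k, ∏ j, c (finProdFinEquiv (k, j)) (e.symm i j))
    (by
      rw [h1]
      exact (Equiv.sum_comp e.symm (fun σ : Fin n → Fin s =>
        HahnSeries.C (∑ k, ∏ j, c (finProdFinEquiv (k, j)) (σ j)) * ((∏ j, ψ (σ j)) * W))).symm)
  -- the generators as elements of `E`
  have hx : ∀ a, ∃ x : FL Qb N, (x : LaurentSeries Qb) = ψ a ∧ x ∈ II Qb (u : FL Qb N) n w :=
    fun a => (hψ a).1
  choose x hxψ hxII using hx
  let ψF : Fin s → EF H N := fun a => ⟨x a, by rw [mem_EF, hxψ a]; exact (hψ a).2⟩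
  let cF : Fin (Fintype.card (Fin n → Fin s)) → EF H N := fun i =>
    ⟨algebraMap Qb (FL Qb N) (c' i), algebraMap_mem_EF (fixC_iff_mem_EH.1 (hc'fix i))⟩
  have hιψ : ∀ a, ι (ψF a) = ψ a := hxψ
  have hιc : ∀ i, ι (cF i) = HahnSeries.C (c' i) := fun i => coe_algebraMap_FL (N := N) (c' i)
  refine ⟨Fintype.card (Fin n → Fin s),
    fun i j => (if j = ⟨0, hn⟩ then cF i else 1) * ψF (e.symm i j), fun i j => ?_, ?_⟩
  · show ((if j = ⟨0, hn⟩ then cF i else 1 : EF H N) : FL Qb N) * (ψF (e.symm i j) : FL Qb N) ∈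
      II Qb (u : FL Qb N) n (w : FL Qb N)
    refine II.mul ?_ (hxII _)
    split_ifs
    · exact IsInt.algebraMap (c' i)
    · exact IsInt.one
  · apply hι
    rw [map_mul, map_sum, map_one, h3, Finset.sum_mul]
    refine Finset.sum_congr rfl fun i _ => ?_
    rw [Finset.prod_mul_distrib, Finset.prod_ite_eq' Finset.univ (⟨0, hn⟩ : Fin n) (fun _ => cF i),
      if_pos (Finset.mem_univ _), map_mul, map_prod, hιc, mul_assoc]
    simp only [hιψ]
    rfl

end Fermat.Agent.CAR.DESC
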