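import Fermat.Agent.CAR.DESC.HGa
import Fermat.Agent.CAR.DESC.HGb
import Fermat.Agent.CAR.BK.Defs
import Fermat.Agent.CAR.NS.FG

/-!
# CAR / DESC : the hypothesis (HG) of `NS.ns_main` for the chart ring `B_u ⊆ F_K`  (assembly)
-/

set_option autoImplicit false
noncomputable section

namespace Fermat.Agent.CAR.DESC

open Polynomial Fermat.Agent.GAL Fermat.Agent.GAL.KL Fermat.Agent.DSC Fermat.Agent.CAR.ON
  Fermat.Agent.CAR.BK

variable {H : Subgroup GQ} {N : ℕ} {Γ₀ I : Type*} [LinearOrderedCommGroupWithZero Γ₀] [Fintype I]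

/-- an integral element of `E` becomes an element of `B_u` after multiplication by a power of `π`. -/
theorem exists_pow_mul_mem_Bu {v : Idx I → Valuation (FL Qb N) Γ₀} (hA : ∀ i, Arch (v i))
    {u : FL Qb N} (π : Bu Qb (EF H N) v u) (hπ : ∀ i, v i ((π : EF H N) : FL Qb N) < 1)
    (y : EF H N) (hy : IsInt Qb u (y : FL Qb N)) :
    ∃ a : ℕ, (π : EF H N) ^ a * y ∈ Bu Qb (EF H N) v u := by
  classical
  have h1 : ∀ i, ∃ a : ℕ, ∀ b, a ≤ b → v i ((π : EF H N) : FL Qb N) ^ b * v i (y : FL Qb N) ≤ 1 := by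
    intro i
    rcases eq_or_ne (v i (y : FL Qb N)) 0 with h0 | h0
    · exact ⟨0, fun b _ => by rw [h0, mul_zero]; exact zero_le_one⟩
    · obtain ⟨a, ha⟩ := hA i _ (hπ i) (v i (y : FL Qb N))⁻¹ (inv_ne_zero h0)
      refine ⟨a, fun b hb => ?_⟩
      have h2 : v i ((π : EF H N) : FL Qb N) ^ b ≤ v i ((π : EF H N) : FL Qb N) ^ a :=
        pow_le_pow_right_of_le_one' (hπ i).le hb
      have h3 := (h2.trans ha.le)
      calc v i ((π : EF H N) : FL Qb N) ^ b * v i (y : FL Qb N)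
          ≤ (v i (y : FL Qb N))⁻¹ * v i (y : FL Qb N) := mul_le_mul_left h3 _
        _ = 1 := inv_mul_cancel₀ h0
  choose a ha using h1
  refine ⟨Finset.univ.sup a, (π.2.1.pow _).mul hy, fun i => ?_⟩
  have e : (((π : EF H N) ^ Finset.univ.sup a * y : EF H N) : FL Qb N)
      = ((π : EF H N) : FL Qb N) ^ Finset.univ.sup a * (y : FL Qb N) := rfl
  rw [e, map_mul, map_pow]
  exact ha i _ (Finset.le_sup (Finset.mem_univ i))

/-- **(HG)** for `B_u`. -/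
theorem hg_Bu {v : Idx I → Valuation (FL Qb N) Γ₀} (hA : ∀ i, Arch (v i)) (u w : EF H N)
    (π : Bu Qb (EF H N) v (u : FL Qb N)) (hπ : ∀ i, v i ((π : EF H N) : FL Qb N) < 1)
    {n : ℕ} (hn : 0 < n) (hw : w ≠ 0)
    (hloc : ∀ c : Qb, LocPow Qb (u : FL Qb N) n (w : FL Qb N) c) :
    ∃ (N' m : ℕ) (φ : Fin m → Fin n → EF H N),
      (∀ k j, φ k j ∈ NS.Lam (Bu Qb (EF H N) v (u : FL Qb N)) n w) ∧
      (∑ k, ∏ j, φ k j) * w = (π : EF H N) ^ N' := by
  have hw' : (w : FL Qb N) ≠ 0 := fun h => hw (Subtype.ext h)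
  obtain ⟨m, φ, hφ, h⟩ := exists_sum_prod hn hw' hloc
  obtain ⟨m', ψ, hψ, h'⟩ := exists_sum_prod_fixed u w hn φ hφ h
  refine NS.hg_of_generic (π := π) (N₀ := 0) hn ψ (fun k j => ?_) (by rw [h', pow_zero])
  exact exists_pow_mul_mem_Bu hA π hπ (ψ k j ^ n * w) (hψ k j)

end Fermat.Agent.CAR.DESC
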