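import Fermat.Agent.CAR.DESC.Fix
import Fermat.Agent.S17.GS.Descent

/-!
# CAR / DESC / B2 : descent of linear algebra  (package DESC-B2)
-/

set_option autoImplicit false
noncomputable section

namespace Fermat.Agent.CAR.DESC

open ModularCurve Fermat.Agent.GAL Fermat.Agent.GR

variable {H : Set GQ}

/-- the `k`-th coefficient as a linear form. -/
def linCoeff (k : ℤ) : LaurentSeries Qb →ₗ[Qb] Qb where
  toFun f := f.coeff k
  map_add' _ _ := HahnSeries.coeff_add ..
  map_smul' _ _ := HahnSeries.coeff_smul ..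

/-- a finite dimensional `ℚ̄`-subspace of `ℚ̄((q))` stable under `H` is spanned by its `H`-fixed vectors.
PROOF. `S17.Descent_abstract` with `c k := coefficient k` (a `ℚ̄`-linear form: `HahnSeries.coeff_smul`, `coeff_add`),
`s τ := galS τ`, `t τ := τ` (index type `S := H` as a subtype, or `S := GQ` restricted). -/
theorem span_fixed (W : Submodule Qb (LaurentSeries Qb)) (hfin : Module.Finite Qb W)
    (hW : ∀ τ ∈ H, ∀ f ∈ W, galS τ f ∈ W) :
    W ≤ Submodule.span Qb {f | f ∈ W ∧ FixS H f} := by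
  have key := S17.Descent_abstract (K := Qb) (V := LaurentSeries Qb) (ι := ℤ) (S := H)
    (fun k => linCoeff k) (fun v hv => by ext k; exact hv k)
    (fun τ => galS τ.1) (fun τ => τ.1) (fun τ => map_zero τ.1) (fun τ => map_one τ.1)
    (fun τ k v => rfl) W hfin (fun τ f hf => hW τ.1 τ.2 f hf)
  refine key.trans (Submodule.span_mono ?_)
  rintro f ⟨hf, hfix⟩
  exact ⟨hf, fun τ hτ => hfix ⟨τ, hτ⟩⟩

/-- a nonzero finite dimensional stable subspace contains a nonzero fixed vector (`span_fixed`). -/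
theorem exists_fixed_ne_zero (W : Submodule Qb (LaurentSeries Qb)) (hfin : Module.Finite Qb W)
    (hW : ∀ τ ∈ H, ∀ f ∈ W, galS τ f ∈ W) (hne : W ≠ ⊥) :
    ∃ f ∈ W, f ≠ 0 ∧ FixS H f := by
  by_contra hcon
  push Not at hcon
  apply hne
  rw [eq_bot_iff]
  refine (span_fixed W hfin hW).trans ?_
  rw [Submodule.span_le]
  rintro f ⟨hf, hfix⟩
  by_contra hf0
  exact hcon f hf hf0 hfix

/-- a linear system with `H`-fixed data which is solvable over `ℚ̄` is solvable with `H`-fixed coefficients.
PROOF. `V := Fin (r+1) → ℚ̄` (or `(Fin r → ℚ̄) × ℚ̄`), `W := {(c, s) | ∑ k, C (c k) * m k = C s * y}`: a subspace, finite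
dimensional, stable under the coordinatewise action of `τ ∈ H` (apply `galS τ`, use `hm`, `hy`, `galS_C`).
`S17.Descent_abstract` with the coordinate forms: `W` is spanned by fixed vectors.  `(c, 1) ∈ W`, so some fixed vector `(c', s')`
of `W` has `s' ≠ 0` (otherwise the linear form `s` vanishes on the span).  Take `c' k / s'`. -/
theorem exists_fixed_coeffs {r : ℕ} (m : Fin r → LaurentSeries Qb) (hm : ∀ k, FixS H (m k))
    {y : LaurentSeries Qb} (hy : FixS H y) (c : Fin r → Qb) (h : y = ∑ k, HahnSeries.C (c k) * m k) :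
    ∃ c' : Fin r → Qb, (∀ k, FixC H (c' k)) ∧ y = ∑ k, HahnSeries.C (c' k) * m k := by
  classical
  let W : Submodule Qb ((Fin r → Qb) × Qb) :=
    { carrier := {p | ∑ k, HahnSeries.C (p.1 k) * m k = HahnSeries.C p.2 * y}
      add_mem' := by
        intro p p' hp hp'
        simp only [Set.mem_ofPred_eq] at hp hp' ⊢
        simp only [Prod.fst_add, Prod.snd_add, Pi.add_apply, map_add, add_mul,
          Finset.sum_add_distrib, hp, hp']
      zero_mem' := by
        simp only [Set.mem_ofPred_eq]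
        simp
      smul_mem' := by
        intro a p hp
        simp only [Set.mem_ofPred_eq] at hp ⊢
        simp only [Prod.smul_fst, Prod.smul_snd, Pi.smul_apply, smul_eq_mul, map_mul, mul_assoc,
          ← Finset.mul_sum, hp] }
  have hmemW : ∀ p : (Fin r → Qb) × Qb,
      p ∈ W ↔ ∑ k, HahnSeries.C (p.1 k) * m k = HahnSeries.C p.2 * y := fun p => Iff.rfl
  let cf : (Fin r ⊕ Unit) → ((Fin r → Qb) × Qb) →ₗ[Qb] Qb := fun i =>
    match i with
    | Sum.inl k => (LinearMap.proj k).comp (LinearMap.fst Qb (Fin r → Qb) Qb)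
    | Sum.inr _ => LinearMap.snd Qb (Fin r → Qb) Qb
  have key := S17.Descent_abstract (K := Qb) (V := (Fin r → Qb) × Qb) (ι := Fin r ⊕ Unit) (S := H)
    cf (fun v hv => by
      refine Prod.ext (funext fun k => hv (Sum.inl k)) (hv (Sum.inr ())))
    (fun τ p => (fun k => τ.1 (p.1 k), τ.1 p.2)) (fun τ => τ.1) (fun τ => map_zero τ.1)
    (fun τ => map_one τ.1)
    (fun τ i v => by
      rcases i with k | u
      · rfl
      · rfl) W inferInstance (fun τ p hp => by
      rw [hmemW] at hp ⊢
      have h1 := congrArg (galS τ.1) hp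
      rw [map_sum, map_mul, galS_C, hy τ.1 τ.2] at h1
      rw [← h1]
      refine Finset.sum_congr rfl fun k _ => ?_
      rw [map_mul, galS_C, hm k τ.1 τ.2])
  have hc1 : ((c, 1) : (Fin r → Qb) × Qb) ∈ W := by
    rw [hmemW]
    simp only [map_one, one_mul]
    exact h.symm
  -- some fixed vector has nonzero last coordinate
  have hex : ∃ p ∈ W, (∀ τ : H, ((fun k => τ.1 (p.1 k), τ.1 p.2) : (Fin r → Qb) × Qb) = p) ∧
      p.2 ≠ 0 := by
    by_contra hcon
    push Not at hcon
    have hle : Submodule.span Qb {f | f ∈ W ∧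
        ∀ τ : H, ((fun k => τ.1 (f.1 k), τ.1 f.2) : (Fin r → Qb) × Qb) = f} ≤
        LinearMap.ker (LinearMap.snd Qb (Fin r → Qb) Qb) := by
      rw [Submodule.span_le]
      rintro f ⟨hf, hfix⟩
      exact hcon f hf hfix
    have := hle (key hc1)
    rw [LinearMap.mem_ker] at this
    exact one_ne_zero this
  obtain ⟨p, hpW, hpfix, hp2⟩ := hex
  have hfix1 : ∀ k, FixC H (p.1 k) := fun k τ hτ =>
    congrFun (congrArg Prod.fst (hpfix ⟨τ, hτ⟩)) k
  have hfix2 : FixC H p.2 := fun τ hτ => congrArg Prod.snd (hpfix ⟨τ, hτ⟩)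
  refine ⟨fun k => p.1 k / p.2, fun k => (hfix1 k).div hfix2, ?_⟩
  rw [hmemW] at hpW
  have hC0 : (HahnSeries.C p.2 : LaurentSeries Qb) ≠ 0 := by
    rw [Ne, map_eq_zero]; exact hp2
  apply mul_left_cancel₀ hC0
  rw [← hpW, Finset.mul_sum]
  refine Finset.sum_congr rfl fun k _ => ?_
  rw [← mul_assoc, ← map_mul, mul_div_cancel₀ _ hp2]

/-- fixed series which are linearly independent over the fixed constants are linearly independent over `ℚ̄`.
PROOF. by contradiction: a nontrivial relation `∑ C (c k) m k = 0`, `c k₀ ≠ 0`; normalise `c k₀ = -1`: `m k₀ = ∑_{k ≠ k₀} …`;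
`exists_fixed_coeffs` gives a relation with fixed coefficients and coefficient `-1` at `k₀`. -/
theorem indep_of_fixed {r : ℕ} (m : Fin r → LaurentSeries Qb) (hm : ∀ k, FixS H (m k))
    (hind : ∀ c : Fin r → Qb, (∀ k, FixC H (c k)) → ∑ k, HahnSeries.C (c k) * m k = 0 → c = 0)
    (c : Fin r → Qb) (h : ∑ k, HahnSeries.C (c k) * m k = 0) : c = 0 := by
  classical
  by_contra hc
  obtain ⟨k₀, hk₀⟩ : ∃ k₀, c k₀ ≠ 0 := by
    by_contra hcon
    push Not at hcon
    exact hc (funext hcon)
  set m' : Fin r → LaurentSeries Qb := fun k => if k = k₀ then 0 else m k with hm'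
  have hm'fix : ∀ k, FixS H (m' k) := by
    intro k
    by_cases hk : k = k₀
    · simp only [hm', if_pos hk]; exact FixS.zero
    · simp only [hm', if_neg hk]; exact hm k
  have hC0 : (HahnSeries.C (c k₀) : LaurentSeries Qb) ≠ 0 := by
    rw [Ne, map_eq_zero]; exact hk₀
  have hsplit : ∀ d : Fin r → Qb, ∑ k, HahnSeries.C (d k) * m k
      = HahnSeries.C (d k₀) * m k₀ + ∑ k, HahnSeries.C (d k) * m' k := by
    intro d
    rw [← Finset.add_sum_erase Finset.univ _ (Finset.mem_univ k₀)]
    congr 1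
    rw [← Finset.add_sum_erase Finset.univ (fun k => HahnSeries.C (d k) * m' k)
      (Finset.mem_univ k₀)]
    simp only [hm', if_true, mul_zero, zero_add]
    refine Finset.sum_congr rfl fun k hk => ?_
    rw [if_neg (Finset.ne_of_mem_erase hk)]
  have hrel : m k₀ = ∑ k, HahnSeries.C (-(c k) / c k₀) * m' k := by
    have h1 := h
    rw [hsplit c] at h1
    apply mul_left_cancel₀ hC0
    rw [Finset.mul_sum, eq_neg_of_add_eq_zero_left h1, ← Finset.sum_neg_distrib]
    refine Finset.sum_congr rfl fun k _ => ?_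
    rw [← mul_assoc, ← map_mul, mul_div_cancel₀ _ hk₀, map_neg, neg_mul]
  obtain ⟨c', hc'fix, hc'⟩ := exists_fixed_coeffs m' hm'fix (hm k₀) _ hrel
  set c'' : Fin r → Qb := fun k => if k = k₀ then -1 else c' k with hc''
  have hc''fix : ∀ k, FixC H (c'' k) := by
    intro k
    by_cases hk : k = k₀
    · simp only [hc'', if_pos hk]; exact FixC.one.neg
    · simp only [hc'', if_neg hk]; exact hc'fix k
  have hzero : ∑ k, HahnSeries.C (c'' k) * m k = 0 := by
    rw [hsplit c'']
    have e1 : c'' k₀ = -1 := by simp only [hc'', if_true]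
    have e2 : ∑ k, HahnSeries.C (c'' k) * m' k = ∑ k, HahnSeries.C (c' k) * m' k := by
      refine Finset.sum_congr rfl fun k _ => ?_
      by_cases hk : k = k₀
      · simp only [hm', if_pos hk, mul_zero]
      · simp only [hc'', if_neg hk]
    rw [e1, e2, ← hc', map_neg, map_one]
    ring
  have := congrFun (hind c'' hc''fix hzero) k₀
  simp only [hc'', if_true, Pi.zero_apply] at this
  exact one_ne_zero (neg_eq_zero.mp this)

end Fermat.Agent.CAR.DESC
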