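import Fermat.Agent.CAR.DESC.EF
import Fermat.Agent.DSC.Teich
import Fermat.Agent.DSC.FinIndex
import Fermat.Agent.S05.Inertia

/-!
# CAR / DESC / A4 + A5 : `n`-th roots of inertia-fixed units are inertia-fixed; `O = A ∩ ℚ̄^H` is a discrete valuation ring
(package DESC-A45)
-/

set_option autoImplicit false
noncomputable section

namespace Fermat.Agent.CAR.DESC

open Fermat.Agent.GAL Fermat.Agent.DSC

variable {A : ValuationSubring Qb} {q : ℕ}

/-- **A4.**  PROOF. `τ ∈ I`.  `b ≠ 0`, `v b = 1` (`v b ^ n = 1`, `pow_eq_one_iff` for linearly ordered groups with zero; `n ≠ 0` because `n.Coprime q`, `q` prime),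
so `b, b⁻¹ ∈ A`.  `ξ := τ b / b`: `ξ ^ n = τ a / a = 1`; `ξ - 1 = (τ b - b) * b⁻¹ ∈ A.nonunits`
(`S05.inertia_spec A τ hτ` gives `τ b - b ∈ A.nonunits`; `A.nonunits` is stable under multiplication by `A`:
`ValuationSubring.mem_nonunits_iff` : `v x < 1`).  `DSC.eq_of_sub_mem_nonunits hq hA (N := n) _ hξ one_pow _` gives `ξ = 1`. -/
theorem root_mem_EH (hq : q.Prime) (hA : A.LiesOverPrime q) {n : ℕ} (hn : Nat.Coprime n q)
    {a b : Qb} (ha : a ∈ EH (A.inertiaSubgroupIn ℚ)) (hva : A.valuation a = 1) (hb : b ^ n = a) :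
    b ∈ EH (A.inertiaSubgroupIn ℚ) := by
  have hqn : ¬ q ∣ n := fun h => hq.one_lt.ne' (Nat.Coprime.eq_one_of_dvd hn.symm h)
  have hn0 : n ≠ 0 := fun h0 => hqn (h0 ▸ dvd_zero q)
  have hvb : A.valuation b = 1 := by
    have h1 : A.valuation b ^ n = 1 := by rw [← map_pow, hb, hva]
    exact (pow_eq_one_iff_of_nonneg zero_le hn0).mp h1
  have hb0 : b ≠ 0 := by
    intro h0
    rw [h0, map_zero] at hvb
    exact zero_ne_one hvb
  have hbA : b ∈ A := (A.valuation_le_one_iff b).mp hvb.le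
  rw [mem_EH] at ha ⊢
  intro τ hτ
  have h1 : (τ b / b) ^ n = 1 := by
    rw [div_pow, ← map_pow, hb, ha τ hτ, div_self]
    rw [← hb]
    exact pow_ne_zero _ hb0
  have h2 : τ b / b - 1 ∈ A.nonunits := by
    have h3 := (Fermat.Agent.S05.inertia_spec A τ hτ).2 b hbA
    rw [ValuationSubring.mem_nonunits_iff] at h3 ⊢
    have h4 : τ b / b - 1 = (τ b - b) * b⁻¹ := by
      field_simp
    rw [h4, map_mul, map_inv₀, hvb, inv_one, mul_one]
    exact h3
  have h5 := eq_of_sub_mem_nonunits hq hA hqn h1 (one_pow n) h2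
  rwa [div_eq_one_iff_eq hb0] at h5

/-- units of `O` are `n`-divisible (`IsAlgClosed ℚ̄` gives the root, `root_mem_EH`). -/
theorem exists_root_EH (hq : q.Prime) (hA : A.LiesOverPrime q) {n : ℕ} (hn : Nat.Coprime n q)
    {a : Qb} (ha : a ∈ EH (A.inertiaSubgroupIn ℚ)) (hva : A.valuation a = 1) :
    ∃ b ∈ EH (A.inertiaSubgroupIn ℚ), b ^ n = a ∧ A.valuation b = 1 := by
  have hqn : ¬ q ∣ n := fun h => hq.one_lt.ne' (Nat.Coprime.eq_one_of_dvd hn.symm h)
  have hn0 : n ≠ 0 := fun h0 => hqn (h0 ▸ dvd_zero q)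
  obtain ⟨b, hb⟩ := IsAlgClosed.exists_pow_nat_eq a (Nat.pos_of_ne_zero hn0)
  refine ⟨b, root_mem_EH hq hA hn ha hva hb, hb, ?_⟩
  have h1 : A.valuation b ^ n = 1 := by rw [← map_pow, hb, hva]
  exact (pow_eq_one_iff_of_nonneg zero_le hn0).mp h1

variable {H : Subgroup GQ}

/-- an element of `O` of valuation one is a unit of `O`. -/
theorem Arith_isUnit_OH {x : OH H A} (h : A.valuation ((x : EH H) : Qb) = 1) : IsUnit x := by
  have hx0 : (x : EH H) ≠ 0 := by
    intro h0
    rw [h0] at h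
    simp at h
  have hy : (x : EH H)⁻¹ ∈ OH H A := by
    rw [mem_OH, ← A.valuation_le_one_iff]
    push_cast
    rw [map_inv₀, h, inv_one]
  exact IsUnit.of_mul_eq_one (⟨(x : EH H)⁻¹, hy⟩ : OH H A) (Subtype.ext (mul_inv_cancel₀ hx0))

theorem Arith_val_lt_one_of_not_isUnit {x : OH H A} (h : ¬ IsUnit x) :
    A.valuation ((x : EH H) : Qb) < 1 := by
  have h1 : A.valuation ((x : EH H) : Qb) ≤ 1 := (A.valuation_le_one_iff _).mpr (mem_OH.mp x.2)
  exact lt_of_le_of_ne h1 fun h2 => h (Arith_isUnit_OH h2)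

/-- **A5.**  PROOF. `IsDiscreteValuationRing.ofHasUnitMulPowIrreducibleFactorization` with `p := ⟨⟨π, hπ.fix⟩, _⟩`.
For `x ≠ 0` in `O`: `hπ.gen` gives `v x = v π ^ j`; `v x ≤ 1`, `v π < 1` force `0 ≤ j` (`DSC.discrete_val_lt_one`, `discrete_one_le_of_zpow_lt_one`-type argument);
`x / π^j ∈ K` has valuation `1`, so it and its inverse lie in `O`: a unit; `Associated (p ^ j.toNat) x`.
Irreducible: `p` is not a unit (`v π < 1`); if `p = a b` then `v a = v π ^ i`, `v b = v π ^ j`, `i, j ≥ 0`, `i + j = 1`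
(`zpow_add₀`, injectivity of `j ↦ v π ^ j`: `zpow_right_injective₀`/`zpow_right_strictAnti₀`), so `i = 0` or `j = 0`, i.e. `a` or `b` is a unit
(`ValuationSubring.valuation_eq_one_iff`-style: an element of `O` of valuation one is a unit of `O`). -/
theorem isDVR_OH {π : Qb} (hπ : IsUnif A H π) : IsDiscreteValuationRing (OH H A) := by
  have hπlt : A.valuation π < 1 := A.mem_nonunits_iff.mp hπ.mem
  have hπpos : 0 < A.valuation π := zero_lt_iff.mpr ((map_ne_zero _).mpr hπ.ne_zero)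
  let p : OH H A := ⟨⟨π, hπ.fix⟩, mem_OH.mpr (A.nonunits_subset hπ.mem)⟩
  have hpv : A.valuation (((p : OH H A) : EH H) : Qb) = A.valuation π := rfl
  -- elements of the maximal ideal are divisible by `π`
  have hle : ∀ x : OH H A, ¬ IsUnit x → A.valuation ((x : EH H) : Qb) ≤ A.valuation π := by
    intro x hx
    have h1 := Arith_val_lt_one_of_not_isUnit hx
    by_cases hx0 : ((x : EH H) : Qb) = 0
    · rw [hx0, map_zero]; exact zero_le
    obtain ⟨j, hj⟩ := hπ.gen _ (x : EH H).2 hx0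
    rw [hj] at h1 ⊢
    have h2 : 1 ≤ j := by
      by_contra hcon
      have h3 : j ≤ 0 := by omega
      have h4 : 1 ≤ A.valuation π ^ j := one_le_zpow_of_nonpos₀ hπpos hπlt.le h3
      exact absurd h1 (not_lt.mpr h4)
    calc A.valuation π ^ j ≤ A.valuation π ^ (1 : ℤ) :=
          zpow_le_zpow_right_of_le_one₀ hπpos hπlt.le h2
      _ = A.valuation π := zpow_one _
  apply IsDiscreteValuationRing.ofHasUnitMulPowIrreducibleFactorization
  refine ⟨p, ⟨?_, ?_⟩, ?_⟩
  · intro hu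
    obtain ⟨y, hy⟩ := hu.exists_right_inv
    have h1 : A.valuation (((p * y : OH H A) : EH H) : Qb) = 1 := by
      rw [hy]; simp
    have h2 : A.valuation ((y : EH H) : Qb) ≤ 1 := (A.valuation_le_one_iff _).mpr (mem_OH.mp y.2)
    have h3 : A.valuation (((p * y : OH H A) : EH H) : Qb) < 1 := by
      push_cast
      rw [map_mul, hpv]
      exact mul_lt_one_of_lt_of_le hπlt h2
    rw [h1] at h3
    exact lt_irrefl _ h3
  · intro a b hab
    by_contra hcon
    push Not at hcon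
    obtain ⟨ha, hb⟩ := hcon
    have h1 := hle a ha
    have h2 := Arith_val_lt_one_of_not_isUnit hb
    have h3 : A.valuation π = A.valuation ((a : EH H) : Qb) * A.valuation ((b : EH H) : Qb) := by
      rw [← hpv, hab]
      push_cast
      rw [map_mul]
    have h4 : A.valuation ((a : EH H) : Qb) * A.valuation ((b : EH H) : Qb) < A.valuation π := by
      calc A.valuation ((a : EH H) : Qb) * A.valuation ((b : EH H) : Qb)
          ≤ A.valuation π * A.valuation ((b : EH H) : Qb) := mul_le_mul_left h1 _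
        _ < A.valuation π * 1 := mul_lt_mul_of_pos_left h2 hπpos
        _ = A.valuation π := mul_one _
    rw [← h3] at h4
    exact lt_irrefl _ h4
  · intro x hx
    have hx0 : ((x : EH H) : Qb) ≠ 0 := by
      intro h0
      apply hx
      apply Subtype.ext
      apply Subtype.ext
      exact h0
    obtain ⟨j, hj⟩ := hπ.gen _ (x : EH H).2 hx0
    have hx1 : A.valuation ((x : EH H) : Qb) ≤ 1 := (A.valuation_le_one_iff _).mpr (mem_OH.mp x.2)
    have hj0 : 0 ≤ j := by
      by_contra hcon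
      have h3 : j < 0 := by omega
      have h4 : 1 < A.valuation π ^ j := one_lt_zpow_of_neg₀ hπpos hπlt h3
      rw [← hj] at h4
      exact absurd hx1 (not_le.mpr h4)
    obtain ⟨n, rfl⟩ : ∃ n : ℕ, j = n := ⟨j.toNat, by omega⟩
    rw [zpow_natCast] at hj
    refine ⟨n, ?_⟩
    -- the unit `x / π ^ n`
    have hπK : (⟨π, hπ.fix⟩ : EH H) ≠ 0 := fun h0 => hπ.ne_zero (congrArg Subtype.val h0)
    have huv : A.valuation (((x : EH H) / (⟨π, hπ.fix⟩ : EH H) ^ n : EH H) : Qb) = 1 := by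
      push_cast
      rw [map_div₀, map_pow, hj]
      exact div_self (pow_ne_zero _ hπpos.ne')
    have hu : (x : EH H) / (⟨π, hπ.fix⟩ : EH H) ^ n ∈ OH H A :=
      mem_OH.mpr ((A.valuation_le_one_iff _).mp huv.le)
    have hunit : IsUnit (⟨_, hu⟩ : OH H A) := Arith_isUnit_OH huv
    obtain ⟨w, hw⟩ := hunit
    refine ⟨w, ?_⟩
    rw [hw]
    apply Subtype.ext
    show (⟨π, hπ.fix⟩ : EH H) ^ n * ((x : EH H) / (⟨π, hπ.fix⟩ : EH H) ^ n) = x
    exact mul_div_cancel₀ _ (pow_ne_zero _ hπK)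

end Fermat.Agent.CAR.DESC
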