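import Fermat.Agent.CAR.KLm.ONBasis
import Fermat.Agent.GAL.KL.Lattice

/-!
# CAR / DESC / N1 : an element of the chart ring of sup norm `≤ 1` is integral over `A[t]`  (package DESC-N1; abstract, KLm language)
-/

set_option autoImplicit false

namespace Fermat.Agent.CAR.DESC

open Polynomial Fermat.Agent.GAL.KL Fermat.Agent.CAR.KLm

variable {L F Γ₀ ι : Type*} [Field L] [Field F] [Algebra L F] [LinearOrderedCommGroupWithZero Γ₀]
  [Fintype ι] [Nonempty ι] {v : ι → Valuation F Γ₀} {o : ι} {t : F}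

/-- PROOF.  (1) `BB L t` has an `L[t]`-basis `a : Fin d → F` (`KL.exists_basis_BB (S.G o).inj β (hβ.inj S) hβs`, exactly as in `CAR/KLm/Main.lean` line 115;
import what is needed) and then an ORTHONORMAL one: `KLm.exists_ONm_basis S β hβ hβs (BB L t) a ha` gives
`e`, `IsBasis L t e (BB L t)`, `ONm L v o t e`.
(2) `NN v (e j) ≤ 1` (`ONm` with `p = Pi.single j 1`, `γ = 1`), so `v i (z * e j) ≤ 1` for all `i`; `z * e j ∈ BB` (`IsInt.mul`), so
`z * e j = comb L t (P j) e` and `ONm` gives `v o (aeval t (P j k)) ≤ 1`, hence (`S.G o`, `Gauss`) all coefficients of `P j k` have `v o ≤ 1`.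
(3) `R := {p : L[X] | ∀ m, v o (algebraMap L F (p.coeff m)) ≤ 1}` is a subring of `L[X]` (= `Polynomial.lifts`/`Subring.map`‑free: prove
`mul_mem` via `Gauss`: `p ∈ R ↔ v o (aeval t p) ≤ 1`!).  `P = P'.map R.subtype`; `f := P.charpoly = (P'.charpoly).map R.subtype` (`Matrix.charpoly_map`):
monic (`Matrix.charpoly_monic`), coefficients in `R`.
(4) `f(z) = 0`: `M := P.map (aeval t) : Matrix _ _ F` satisfies `M *ᵥ e = z • e`, `e ≠ 0` (`d = 0` is impossible: `1 ∈ BB`, `1 ≠ 0`; a basis vector is `≠ 0` by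
independence), so `det (z • 1 - M) = 0` (`Matrix.exists_mulVec_eq_zero_iff`) `= eval z M.charpoly` (`Matrix.eval_charpoly`/`Matrix.charpoly`, `Matrix.eval_det`), and
`M.charpoly = f.map (aeval t)` (`Matrix.charpoly_map`), `eval₂ = eval ∘ map` (`Polynomial.eval₂_eq_eval_map`). -/
theorem exists_monic_of_NN_le [IsAlgClosed L] [CharZero L] (S : Setup L v t) {d : ℕ} (β : Fin d → F)
    (hβ : ONm L v o t β) (hβs : Spans L t β) {z : F} (hz : IsInt L t z) (hN : ∀ i, v i z ≤ 1) :
    ∃ f : L[X][X], f.Monic ∧ (∀ i j, v o (algebraMap L F ((f.coeff i).coeff j)) ≤ 1) ∧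
      eval₂ ((aeval t : L[X] →ₐ[L] F) : L[X] →+* F) z f = 0 := by
  classical
  obtain ⟨a, ha⟩ := exists_basis_BB (S.G o).inj β (hβ.inj S) hβs
  obtain ⟨e, he, heON⟩ := exists_ONm_basis S β hβ hβs (BB L t) a ha
  -- the matrix of multiplication by `z`
  have hmem : ∀ j, e j ∈ BB L t := fun j => (he.2 (e j)).2 ⟨Pi.single j 1, by
    rw [comb_single, map_one, one_mul]⟩
  have hex : ∀ j, ∃ p : Fin d → L[X], z * e j = comb L t p e := fun j =>
    (he.2 (z * e j)).1 (hz.mul (hmem j))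
  choose P hP using hex
  set φ : L[X] →+* F := ((aeval t : L[X] →ₐ[L] F) : L[X] →+* F) with hφ
  have hPle : ∀ j k, v o (φ (P j k)) ≤ 1 := by
    intro j
    refine (heON (P j) 1).1 ?_
    rw [← hP j]
    refine (NN_mul_le z (e j)).trans ?_
    rw [heON.NN_eq_one j, mul_one]
    exact NN_le_iff.2 hN
  -- the subring of polynomials of norm `≤ 1`
  let R : Subring L[X] := (v o).integer.comap φ
  have hR : ∀ p : L[X], p ∈ R ↔ v o (φ p) ≤ 1 := fun p => Iff.rfl
  let P' : Matrix (Fin d) (Fin d) R := Matrix.of fun j k => ⟨P j k, (hR _).2 (hPle j k)⟩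
  let PM : Matrix (Fin d) (Fin d) L[X] := Matrix.of fun j k => P j k
  have hPM : PM = P'.map R.subtype := by
    ext j k : 2
    rfl
  refine ⟨PM.charpoly, Matrix.charpoly_monic _, fun i j => ?_, ?_⟩
  · have h1 : PM.charpoly.coeff i ∈ R := by
      rw [hPM, Matrix.charpoly_map, coeff_map]
      exact (P'.charpoly.coeff i).2
    exact ((S.G o) _ 1).1 ((hR _).1 h1) j
  · rw [eval₂_eq_eval_map, ← Matrix.charpoly_map, Matrix.eval_charpoly]
    apply Matrix.exists_mulVec_eq_zero_iff.1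
    refine ⟨e, ?_, ?_⟩
    · intro h0
      obtain ⟨p, hp⟩ := (he.2 1).1 (IsInt.one : IsInt L t (1 : F))
      rw [h0] at hp
      simp [comb] at hp
    · funext j
      rw [Matrix.sub_mulVec, Pi.sub_apply, Pi.zero_apply, sub_eq_zero]
      have h1 : (Matrix.mulVec (Matrix.scalar (Fin d) z) e) j = z * e j := by
        rw [Matrix.scalar_apply, Matrix.mulVec_diagonal]
      have h2 : (Matrix.mulVec (PM.map φ) e) j = comb L t (P j) e := rfl
      rw [h1, h2, hP j]

end Fermat.Agent.CAR.DESC
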