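import Fermat.Agent.CAR.DESC.EF
import Fermat.Agent.CAR.NRM.Inst.Defs

/-!
# CAR / DESC / FK : the dictionary  `DESC.EF (I_A) N = NRM.Inst.FK A N`,  `DSC.EH (I_A) ↔ NRM.Inst.KK A`
-/

set_option autoImplicit false

noncomputable section

namespace Fermat.Agent.CAR.DESC

open Fermat.Agent.GAL Fermat.Agent.DSC Fermat.Agent.TOR.GB Fermat.Agent.GR.HeckeField

variable (A : ValuationSubring Qb)

/-- the two definitions of `F_K(N)` agree. -/
theorem EF_eq_FK (N : ℕ) : EF (A.inertiaSubgroupIn ℚ) N = NRM.Inst.FK A N :=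
  Subfield.ext fun _ => mem_EF_iff_mem_FH.trans (NRM.Inst.mem_FK_iff A).symm

theorem mem_EF_iff_mem_FK {N : ℕ} {z : FL Qb N} :
    z ∈ EF (A.inertiaSubgroupIn ℚ) N ↔ z ∈ NRM.Inst.FK A N := by rw [EF_eq_FK]

/-- `K = ℚ̄^I` : the subfield underlying the intermediate field. -/
theorem KK_eq_EH : NRM.Inst.KK A = (EH (A.inertiaSubgroupIn ℚ)).toSubfield := rfl

theorem mem_KK_iff_mem_EH {a : Qb} : a ∈ NRM.Inst.KK A ↔ a ∈ EH (A.inertiaSubgroupIn ℚ) := Iff.rfl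

/-- the identity `K → K` as a ring isomorphism between the two incarnations. -/
def kkEquiv : NRM.Inst.KK A ≃+* EH (A.inertiaSubgroupIn ℚ) := RingEquiv.refl _

@[simp] theorem coe_kkEquiv (a : NRM.Inst.KK A) : ((kkEquiv A a : EH (A.inertiaSubgroupIn ℚ)) : Qb) = a :=
  rfl

/-- constants of `K` in `F_K`. -/
theorem algebraMap_mem_FK_of_mem_EH (N : ℕ) {a : Qb} (ha : a ∈ EH (A.inertiaSubgroupIn ℚ)) :
    algebraMap Qb (FL Qb N) a ∈ NRM.Inst.FK A N := by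
  rw [← EF_eq_FK]
  exact algebraMap_mem_EF ha

end Fermat.Agent.CAR.DESC
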