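import Fermat.Agent.CAR.DESC.EF
import Fermat.Agent.CAR.DESC.Lin
import Fermat.Agent.GAL.KL.Defs

/-!
# CAR / DESC / N3 : `E = F_K` is finite over `Frac O[u] = K(u)`  (package DESC-N3)
-/

set_option autoImplicit false
noncomputable section

namespace Fermat.Agent.CAR.DESC

open Polynomial Fermat.Agent.GAL Fermat.Agent.GAL.KL Fermat.Agent.DSC

variable {H : Subgroup GQ} {N : ℕ} (A : ValuationSubring Qb)

/-- PROOF: `iO p = 0 → aeval u (upO p) = 0` (`coe_iO`) `→ upO p = 0 → p = 0` (`Polynomial.map_injective`, both maps `O → K → ℚ̄` are injective). -/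
theorem iO_injective (u : EF H N) (hu : ∀ p : Qb[X], aeval (u : FL Qb N) p = 0 → p = 0) :
    Function.Injective (iO H A u) := by
  rw [injective_iff_map_eq_zero]
  intro p hp
  have h1 : aeval (u : FL Qb N) (upO H A p) = 0 := by
    rw [← coe_iO, hp]
    rfl
  have h2 := hu _ h1
  have hinj : Function.Injective ((algebraMap (EH H) Qb).comp (OH H A).subtype) :=
    (algebraMap (EH H) Qb).injective.comp Subtype.val_injective
  exact Polynomial.map_injective _ hinj (by rw [Polynomial.map_zero]; exact h2)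

/-- `d + 1` elements of `F` are dependent over `ℚ̄[u]`.
PROOF: `hβs (e j)`: `aeval u (Q j) * e j = comb (P j) β`, `Q j ≠ 0`.  The `d + 1` rows `P j ∈ Fin d → ℚ̄[X]` are linearly dependent over the domain `ℚ̄[X]`
(`LinearIndependent.fintype_card_le_finrank` + `Module.finrank_fin_fun`, strong rank condition; `Fintype.not_linearIndependent_iff`): `∑ r j • P j = 0`, `r j₀ ≠ 0`.
Take `p j := r j * Q j`. -/
theorem exists_rel_of_spans {u : FL Qb N} {d : ℕ} (β : Fin d → FL Qb N) (hβs : Spans Qb u β)
    (e : Fin (d + 1) → FL Qb N) :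
    ∃ p : Fin (d + 1) → Qb[X], p ≠ 0 ∧ ∑ j, aeval u (p j) * e j = 0 := by
  classical
  choose Q P hQ hQP using fun j => hβs (e j)
  have hdep : ¬ LinearIndependent Qb[X] P := by
    intro hli
    have := hli.fintype_card_le_finrank
    rw [Fintype.card_fin, Module.finrank_fin_fun] at this
    omega
  rw [Fintype.not_linearIndependent_iff] at hdep
  obtain ⟨r, hr, j₀, hj₀⟩ := hdep
  refine ⟨fun j => r j * Q j, fun h0 => ?_, ?_⟩
  · exact mul_ne_zero hj₀ (hQ j₀) (congrFun h0 j₀)
  · have h1 : ∀ j, aeval u (r j * Q j) * e j = ∑ i, aeval u (r j * P j i) * β i := by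
      intro j
      rw [map_mul, mul_assoc, hQP j, comb, Finset.mul_sum]
      refine Finset.sum_congr rfl fun i _ => ?_
      rw [map_mul, mul_assoc]
    simp only [h1]
    rw [Finset.sum_comm]
    refine Finset.sum_eq_zero fun i _ => ?_
    rw [← Finset.sum_mul, ← map_sum]
    have h2 : ∑ j, r j * P j i = 0 := by
      have := congrFun hr i
      simpa [Finset.sum_apply, Pi.smul_apply, smul_eq_mul] using this
    rw [h2, map_zero, zero_mul]

/-- the polynomials attached to a table of coefficients. -/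
def FinDim_poly {r D : ℕ} (c : Fin (r * (D + 1)) → Qb) (j : Fin r) : Qb[X] :=
  ∑ m : Fin (D + 1), C (c (finProdFinEquiv (j, m))) * X ^ (m : ℕ)

theorem FinDim_poly_coeff {r D : ℕ} (c : Fin (r * (D + 1)) → Qb) (j : Fin r) (m : ℕ) :
    (FinDim_poly c j).coeff m =
      if h : m < D + 1 then c (finProdFinEquiv (j, ⟨m, h⟩)) else 0 := by
  classical
  rw [FinDim_poly, finsetSum_coeff]
  simp only [coeff_C_mul_X_pow]
  by_cases h : m < D + 1
  · rw [dif_pos h, Finset.sum_eq_single (⟨m, h⟩ : Fin (D + 1))]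
    · rw [if_pos rfl]
    · intro b _ hb
      rw [if_neg]
      intro hm
      exact hb (Fin.ext hm.symm)
    · intro hh
      exact absurd (Finset.mem_univ _) hh
  · rw [dif_neg h]
    refine Finset.sum_eq_zero fun b _ => ?_
    rw [if_neg]
    intro hm
    exact h (hm ▸ b.2)

theorem FinDim_coe_rel (u : FL Qb N) {r D : ℕ} (e : Fin r → FL Qb N)
    (c : Fin (r * (D + 1)) → Qb) :
    ((∑ j, aeval u (FinDim_poly c j) * e j : FL Qb N) : LaurentSeries Qb) =
      ∑ k, HahnSeries.C (c k) * ((u : LaurentSeries Qb) ^ ((finProdFinEquiv.symm k).2 : ℕ) *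
        (e (finProdFinEquiv.symm k).1 : LaurentSeries Qb)) := by
  rw [← Equiv.sum_comp finProdFinEquiv, Fintype.sum_prod_type]
  simp only [Equiv.symm_apply_apply]
  have h1 : ((∑ j, aeval u (FinDim_poly c j) * e j : FL Qb N) : LaurentSeries Qb) =
      (FL Qb N).val (∑ j, aeval u (FinDim_poly c j) * e j) := rfl
  rw [h1, map_sum]
  refine Finset.sum_congr rfl fun j _ => ?_
  rw [map_mul, FinDim_poly, map_sum, map_sum, Finset.sum_mul]
  refine Finset.sum_congr rfl fun m _ => ?_
  rw [map_mul, map_mul, aeval_C, map_pow, map_pow, aeval_X, mul_assoc]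
  congr 1
  exact coe_algebraMap_FL (N := N) _

/-- descent of the relation.  PROOF: let `D` bound the degrees; the relation is `∑_{(j,m) ∈ Fin (d+1) × Fin (D+1)} C (c j m) * (u^m e j) = 0` in `ℚ̄((q))`,
`c j m = (p j).coeff m` not all `0`, and the series `u^m e j` are `H`-fixed.  `indep_of_fixed` (contrapositive; transport the index type by
`finProdFinEquiv` / `Fintype.equivFin`) gives fixed `c'`, not all `0`, with the same relation.  `p' j := ∑ m, C (c' j m) X^m`. -/
theorem exists_fixed_rel (u : EF H N) {r : ℕ} (e : Fin r → EF H N) (p : Fin r → Qb[X]) (hp : p ≠ 0)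
    (h : ∑ j, aeval (u : FL Qb N) (p j) * (e j : FL Qb N) = 0) :
    ∃ p' : Fin r → Qb[X], p' ≠ 0 ∧ (∀ j m, (p' j).coeff m ∈ EH H) ∧
      ∑ j, aeval (u : FL Qb N) (p' j) * (e j : FL Qb N) = 0 := by
  classical
  by_contra hcon
  push Not at hcon
  set D := Finset.univ.sup fun j => (p j).natDegree with hDdef
  have hD : ∀ j, (p j).natDegree ≤ D := fun j =>
    Finset.le_sup (f := fun j => (p j).natDegree) (Finset.mem_univ j)
  set mm : Fin (r * (D + 1)) → LaurentSeries Qb := fun k =>
    ((u : FL Qb N) : LaurentSeries Qb) ^ ((finProdFinEquiv.symm k).2 : ℕ) *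
      ((e (finProdFinEquiv.symm k).1 : FL Qb N) : LaurentSeries Qb) with hmmdef
  have hmm : ∀ k, FixS (H : Set GQ) (mm k) := fun k => (FixS.pow u.2 _).mul (e _).2
  have hind : ∀ c : Fin (r * (D + 1)) → Qb, (∀ k, FixC (H : Set GQ) (c k)) →
      ∑ k, HahnSeries.C (c k) * mm k = 0 → c = 0 := by
    intro c hc hrel
    by_contra hc0
    refine hcon (FinDim_poly c) ?_ ?_ ?_
    · intro h0
      apply hc0
      funext k
      have h1 := congrArg (fun P : Fin r → Qb[X] => (P (finProdFinEquiv.symm k).1).coeff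
        ((finProdFinEquiv.symm k).2 : ℕ)) h0
      simp only [FinDim_poly_coeff, Pi.zero_apply, coeff_zero] at h1
      rw [dif_pos (finProdFinEquiv.symm k).2.2] at h1
      have h2 : finProdFinEquiv ((finProdFinEquiv.symm k).1,
          (⟨((finProdFinEquiv.symm k).2 : ℕ), (finProdFinEquiv.symm k).2.2⟩ : Fin (D + 1))) = k :=
        finProdFinEquiv.apply_symm_apply k
      rw [h2] at h1
      exact h1
    · intro j m
      rw [FinDim_poly_coeff]
      split_ifs
      · exact fixC_iff_mem_EH.1 (hc _)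
      · exact zero_mem _
    · apply Subtype.val_injective
      rw [FinDim_coe_rel]
      exact hrel
  set c₀ : Fin (r * (D + 1)) → Qb := fun k =>
    (p (finProdFinEquiv.symm k).1).coeff ((finProdFinEquiv.symm k).2 : ℕ) with hc₀
  have hpc : FinDim_poly c₀ = p := by
    funext j
    ext m
    rw [FinDim_poly_coeff]
    by_cases hm : m < D + 1
    · rw [dif_pos hm, hc₀]
      simp only [Equiv.symm_apply_apply]
    · rw [dif_neg hm, coeff_eq_zero_of_natDegree_lt]
      have := hD j
      omega
  have hc := indep_of_fixed mm hmm hind c₀ (by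
    have h1 := FinDim_coe_rel (u : FL Qb N) (fun j => (e j : FL Qb N)) c₀
    rw [hpc, h] at h1
    exact h1.symm)
  apply hp
  rw [← hpc, hc]
  funext j
  ext m
  rw [FinDim_poly_coeff]
  split_ifs <;> simp

/-- the constants lie in the closure. -/
theorem FinDim_const_mem (u : EF H N) (c : EH H) :
    algebraMap (EH H) (EF H N) c ∈ Subfield.closure (Set.range (iO H A u)) := by
  rcases (OH H A).mem_or_inv_mem c with hc | hc
  · exact Subfield.subset_closure ⟨C ⟨c, hc⟩, iO_C H A u ⟨c, hc⟩⟩
  · have h1 : algebraMap (EH H) (EF H N) c⁻¹ ∈ Subfield.closure (Set.range (iO H A u)) :=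
      Subfield.subset_closure ⟨C ⟨c⁻¹, hc⟩, iO_C H A u ⟨c⁻¹, hc⟩⟩
    have h2 := inv_mem h1
    rwa [map_inv₀, inv_inv] at h2

/-- polynomials in `u` with fixed coefficients lie in the closure. -/
theorem FinDim_aeval_mem (u : EF H N) (p : Qb[X]) (hp : ∀ m, p.coeff m ∈ EH H) :
    ∃ a ∈ Subfield.closure (Set.range (iO H A u)), ((a : EF H N) : FL Qb N) =
      aeval (u : FL Qb N) p := by
  refine ⟨∑ i ∈ Finset.range (p.natDegree + 1),
    algebraMap (EH H) (EF H N) ⟨p.coeff i, hp i⟩ * u ^ i, ?_, ?_⟩
  · refine sum_mem fun i _ => mul_mem (FinDim_const_mem A u _) (pow_mem ?_ i)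
    exact Subfield.subset_closure ⟨X, iO_X H A u⟩
  · rw [aeval_eq_sum_range]
    have h1 : ∀ z : EF H N, (z : FL Qb N) = (EF H N).subtype z := fun _ => rfl
    rw [h1, map_sum]
    refine Finset.sum_congr rfl fun i _ => ?_
    rw [map_mul, map_pow, Algebra.smul_def]
    rfl

/-- PROOF.  `k₀ := Subfield.closure (range (iO H A u))` contains `u` (`iO_X`) and every constant `algebraMap (EH H) E c` (`c ∈ O` or `c⁻¹ ∈ O`:
`ValuationSubring.mem_or_inv_mem`; `iO_C`; `inv_mem`), hence every `aeval u p'` with `p'` over `EH H`.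
Any `d + 1` elements of `E` are linearly dependent over `k₀` (`exists_rel_of_spans`, `exists_fixed_rel`; the coefficient `aeval u (p' j₀) ≠ 0` by `hu`).
So `Module.rank k₀ E ≤ d` (`rank_le` / `linearIndependent_bounded_of_finset_linearIndependent_bounded`) and `E` is finite dimensional
(`Module.rank_lt_aleph0_iff`/`FiniteDimensional.of_rank…`, `IsNoetherian.iff_rank_lt_aleph0`). -/
theorem finiteDimensional_iO (u : EF H N) (hu : ∀ p : Qb[X], aeval (u : FL Qb N) p = 0 → p = 0)
    {d : ℕ} (β : Fin d → FL Qb N) (hβs : Spans Qb (u : FL Qb N) β) :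
    FiniteDimensional (Subfield.closure (Set.range (iO H A u))) (EF H N) := by
  classical
  have hdep : ∀ e : Fin (d + 1) → EF H N,
      ¬ LinearIndependent (Subfield.closure (Set.range (iO H A u))) e := by
    intro e hli
    obtain ⟨p, hp, hrel⟩ := exists_rel_of_spans β hβs (fun j => (e j : FL Qb N))
    obtain ⟨p', hp', hfix, hrel'⟩ := exists_fixed_rel u e p hp hrel
    choose a ha hae using fun j => FinDim_aeval_mem A u (p' j) (hfix j)
    rw [Fintype.linearIndependent_iff] at hli
    have h0 := hli (fun j => ⟨a j, ha j⟩) (by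
      apply Subtype.val_injective
      have h1 : ∀ z : EF H N, (z : FL Qb N) = (EF H N).subtype z := fun _ => rfl
      rw [h1, map_sum]
      refine Eq.trans ?_ hrel'
      refine Finset.sum_congr rfl fun j _ => ?_
      rw [← hae j]
      rfl)
    apply hp'
    funext j
    apply hu
    rw [← hae j]
    have := congrArg Subtype.val (h0 j)
    simp only at this
    rw [this]
    rfl
  have hrank : Module.rank (Subfield.closure (Set.range (iO H A u))) (EF H N) ≤ (d : ℕ) := by
    refine rank_le fun s hs => ?_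
    by_contra hcard
    push Not at hcard
    refine hdep (fun j => ((s.equivFin.symm (Fin.castLE hcard j) : s) : EF H N)) ?_
    exact hs.comp (fun j => s.equivFin.symm (Fin.castLE hcard j))
      (s.equivFin.symm.injective.comp (Fin.castLE_injective hcard))
  exact Module.rank_lt_aleph0_iff.1 (lt_of_le_of_lt hrank (Cardinal.natCast_lt_aleph0))

end Fermat.Agent.CAR.DESC
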