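import Fermat.Agent.GAL.Defs
import Fermat.Agent.GR.GaussRed

/-!
# CAR / DESC : elements and series fixed by a set `H` of Galois automorphisms (definitions + basic API, no sorry)

Everything is elementwise and generic in `H : Set GQ`
(`H = I_A` inertia;  `H = I_A ∩ Gal(ℚ̄/ℚ(ζ_q))`;  `H = Gal(ℚ̄/K)`;  `H = univ`).
-/

set_option autoImplicit false
noncomputable section

namespace Fermat.Agent.CAR.DESC

open ModularCurve Fermat.Agent.GAL Fermat.Agent.GR

variable (H : Set GQ)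

/-- the constant `x` is fixed by `H`. -/
def FixC (x : Qb) : Prop := ∀ τ ∈ H, τ x = x

/-- the series `z` is fixed by `H` (acting on the coefficients). -/
def FixS (z : LaurentSeries Qb) : Prop := ∀ τ ∈ H, galS τ z = z

variable {H}

theorem galS_coeff (τ : GQ) (z : LaurentSeries Qb) (k : ℤ) : (galS τ z).coeff k = τ (z.coeff k) := rfl

theorem fixS_iff {z : LaurentSeries Qb} : FixS H z ↔ ∀ k, FixC H (z.coeff k) :=
  ⟨fun h k τ hτ => by rw [← galS_coeff, h τ hτ], fun h τ hτ => by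
    ext k; rw [galS_coeff, h k τ hτ]⟩

theorem FixC.zero : FixC H 0 := fun τ _ => map_zero τ
theorem FixC.one : FixC H 1 := fun τ _ => map_one τ
theorem FixC.add {x y : Qb} (hx : FixC H x) (hy : FixC H y) : FixC H (x + y) := fun τ hτ => by
  rw [map_add, hx τ hτ, hy τ hτ]
theorem FixC.mul {x y : Qb} (hx : FixC H x) (hy : FixC H y) : FixC H (x * y) := fun τ hτ => by
  rw [map_mul, hx τ hτ, hy τ hτ]
theorem FixC.neg {x : Qb} (hx : FixC H x) : FixC H (-x) := fun τ hτ => by
  rw [map_neg, hx τ hτ]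
theorem FixC.sub {x y : Qb} (hx : FixC H x) (hy : FixC H y) : FixC H (x - y) := fun τ hτ => by
  rw [map_sub, hx τ hτ, hy τ hτ]
theorem FixC.inv {x : Qb} (hx : FixC H x) : FixC H x⁻¹ := fun τ hτ => by
  rw [map_inv₀, hx τ hτ]
theorem FixC.div {x y : Qb} (hx : FixC H x) (hy : FixC H y) : FixC H (x / y) := fun τ hτ => by
  rw [map_div₀, hx τ hτ, hy τ hτ]
theorem FixC.pow {x : Qb} (hx : FixC H x) (n : ℕ) : FixC H (x ^ n) := fun τ hτ => by
  rw [map_pow, hx τ hτ]
theorem FixC.zpow {x : Qb} (hx : FixC H x) (n : ℤ) : FixC H (x ^ n) := fun τ hτ => by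
  rw [map_zpow₀, hx τ hτ]
theorem FixC.algebraMap (r : ℚ) : FixC H (algebraMap ℚ Qb r) := fun τ _ => τ.commutes r
theorem FixC.natCast (n : ℕ) : FixC H (n : Qb) := fun τ _ => map_natCast τ n
theorem FixC.intCast (n : ℤ) : FixC H (n : Qb) := fun τ _ => map_intCast τ n
theorem FixC.sum {ι : Type*} (s : Finset ι) {f : ι → Qb} (h : ∀ i ∈ s, FixC H (f i)) :
    FixC H (∑ i ∈ s, f i) := fun τ hτ => by
  rw [map_sum]; exact Finset.sum_congr rfl fun i hi => h i hi τ hτ
theorem FixC.mono {H' : Set GQ} (hH : H' ⊆ H) {x : Qb} (hx : FixC H x) : FixC H' x :=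
  fun τ hτ => hx τ (hH hτ)

theorem FixS.zero : FixS H 0 := fun τ _ => map_zero (galS τ)
theorem FixS.one : FixS H 1 := fun τ _ => map_one (galS τ)
theorem FixS.add {x y : LaurentSeries Qb} (hx : FixS H x) (hy : FixS H y) : FixS H (x + y) :=
  fun τ hτ => by rw [map_add, hx τ hτ, hy τ hτ]
theorem FixS.mul {x y : LaurentSeries Qb} (hx : FixS H x) (hy : FixS H y) : FixS H (x * y) :=
  fun τ hτ => by rw [map_mul, hx τ hτ, hy τ hτ]
theorem FixS.neg {x : LaurentSeries Qb} (hx : FixS H x) : FixS H (-x) := fun τ hτ => by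
  rw [map_neg, hx τ hτ]
theorem FixS.sub {x y : LaurentSeries Qb} (hx : FixS H x) (hy : FixS H y) : FixS H (x - y) :=
  fun τ hτ => by rw [map_sub, hx τ hτ, hy τ hτ]
theorem FixS.inv {x : LaurentSeries Qb} (hx : FixS H x) : FixS H x⁻¹ := fun τ hτ => by
  rw [map_inv₀, hx τ hτ]
theorem FixS.div {x y : LaurentSeries Qb} (hx : FixS H x) (hy : FixS H y) : FixS H (x / y) :=
  fun τ hτ => by rw [map_div₀, hx τ hτ, hy τ hτ]
theorem FixS.pow {x : LaurentSeries Qb} (hx : FixS H x) (n : ℕ) : FixS H (x ^ n) := fun τ hτ => by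
  rw [map_pow, hx τ hτ]
theorem FixS.sum {ι : Type*} (s : Finset ι) {f : ι → LaurentSeries Qb} (h : ∀ i ∈ s, FixS H (f i)) :
    FixS H (∑ i ∈ s, f i) := fun τ hτ => by
  rw [map_sum]; exact Finset.sum_congr rfl fun i hi => h i hi τ hτ
theorem FixS.prod {ι : Type*} (s : Finset ι) {f : ι → LaurentSeries Qb} (h : ∀ i ∈ s, FixS H (f i)) :
    FixS H (∏ i ∈ s, f i) := fun τ hτ => by
  rw [map_prod]; exact Finset.prod_congr rfl fun i hi => h i hi τ hτ
theorem FixS.mono {H' : Set GQ} (hH : H' ⊆ H) {x : LaurentSeries Qb} (hx : FixS H x) : FixS H' x :=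
  fun τ hτ => hx τ (hH hτ)
theorem FixS.coeff {x : LaurentSeries Qb} (hx : FixS H x) (k : ℤ) : FixC H (x.coeff k) :=
  fixS_iff.1 hx k

theorem galS_C (τ : GQ) (a : Qb) : galS τ (HahnSeries.C a) = HahnSeries.C (τ a) := by
  ext k
  rw [galS_coeff]
  simp only [HahnSeries.C_apply, HahnSeries.coeff_single]
  split_ifs
  · rfl
  · exact map_zero τ

theorem FixC.C {a : Qb} (ha : FixC H a) : FixS H (HahnSeries.C a) := fun τ hτ => by
  rw [galS_C, ha τ hτ]

theorem galS_intS (τ : GQ) (J : LaurentSeries ℤ) : galS τ (intS Qb J) = intS Qb J := by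
  ext k
  rw [galS_coeff, coeffMap_coeff]
  exact map_intCast τ _

theorem FixS.intS (J : LaurentSeries ℤ) : FixS H (intS Qb J) := fun τ _ => galS_intS τ J

theorem galS_coeffEmb (τ : GQ) (y : LaurentSeries ℚ) : galS τ (coeffEmb Qb y) = coeffEmb Qb y := by
  ext k
  rw [galS_coeff, coeffEmb_coeff]
  exact τ.commutes _

theorem FixS.coeffEmb (y : LaurentSeries ℚ) : FixS H (coeffEmb Qb y) := fun τ _ => galS_coeffEmb τ y

theorem galS_smul (τ : GQ) (a : Qb) (z : LaurentSeries Qb) : galS τ (a • z) = τ a • galS τ z := by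
  ext k
  rw [galS_coeff, HahnSeries.coeff_smul, HahnSeries.coeff_smul, galS_coeff, smul_eq_mul, smul_eq_mul,
    map_mul]

theorem galS_mem_PSer (τ : GQ) {P : LaurentSeries Qb} (hP : P ∈ PSer Qb) : galS τ P ∈ PSer Qb := by
  induction hP using Submodule.span_induction with
  | mem x hx =>
    obtain ⟨J, rfl⟩ := hx
    rw [galS_intS]; exact intS_mem_PSer J
  | zero => rw [map_zero]; exact (PSer Qb).zero_mem
  | add x y _ _ hx hy => rw [map_add]; exact (PSer Qb).add_mem hx hy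
  | smul a x _ hx => rw [galS_smul]; exact (PSer Qb).smul_mem _ hx

theorem galS_mul (σ τ : GQ) (z : LaurentSeries Qb) : galS (σ * τ) z = galS σ (galS τ z) := rfl

theorem galS_one (z : LaurentSeries Qb) : galS 1 z = z := by
  ext k; rfl

end Fermat.Agent.CAR.DESC
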