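import Fermat.Agent.CAR.DESC.EF
import Fermat.Agent.CAR.DESC.Lin
import Fermat.Agent.DSC.OrbitSum
import Fermat.Agent.GAL.Mod.ES

/-!
# CAR / DESC / G : finitely many elements of an `H`-stable `ℚ̄`-subspace of `FL ℚ̄ N` are `ℚ̄`-combinations of `H`-fixed elements of the subspace
(package DESC-G)
-/

set_option autoImplicit false
noncomputable section

namespace Fermat.Agent.CAR.DESC

open ModularCurve Fermat.Agent.GAL Fermat.Agent.GR Fermat.Agent.DSC

variable {H : Subgroup GQ} {N : ℕ}

/-- PROOF.  For each `k` the orbit `{galS τ (φ k) | τ : GQ}` is finite (`GAL.exists_level_of_mem_FL (hSFL _ (hφ k))` + `DSC.finite_orbit`).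
`T := ⋃ k, {galS τ (φ k) | τ ∈ H}` is a finite subset of `S`; `W := Submodule.span ℚ̄ T ≤ S` is finite dimensional (`FiniteDimensional.span_of_finite`) and stable under `galS σ`, `σ ∈ H`
(`Submodule.span_induction`, `galS_smul`, `galS_mul`, `H.mul_mem`).  `span_fixed W _ _ : W ≤ span {f ∈ W | FixS H f}`.
Each `φ k ∈ W` (`τ = 1`, `galS_one`) is therefore a finite combination of fixed vectors of `W` (`Submodule.mem_span_set'` / `mem_span_finset`); collect the finitely many vectors used for the
`r` elements in one list `ψ : Fin s → _` (e.g. take a finite basis: the span of the fixed vectors of `W` equals `W`, finite dimensional, so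
`exists_fin_basis`-free route: `Submodule.fg_iff_exists_fin_generating_family` does not give generators inside the set; use instead
`Submodule.exists_finset_of_mem_iSup`-free: `Submodule.mem_span_finset'`+ union of finsets, `Finset.equivFin`).
`a • y = C a * y` : `HahnSeries.C_mul_eq_smul`. -/
theorem exists_fixed_gens (S : Submodule Qb (LaurentSeries Qb)) (hSFL : ∀ y ∈ S, y ∈ FL Qb N)
    (hS : ∀ τ ∈ H, ∀ y ∈ S, galS τ y ∈ S) {r : ℕ} (φ : Fin r → LaurentSeries Qb)
    (hφ : ∀ k, φ k ∈ S) :
    ∃ (s : ℕ) (ψ : Fin s → LaurentSeries Qb) (c : Fin r → Fin s → Qb),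
      (∀ a, ψ a ∈ S ∧ FixS (H : Set GQ) (ψ a)) ∧ ∀ k, φ k = ∑ a, HahnSeries.C (c k a) * ψ a := by
  classical
  -- the orbits are finite
  have hfin : ∀ k, (Set.range fun τ : GQ => galS τ (φ k)).Finite := by
    intro k
    obtain ⟨L, hL, hLf⟩ := exists_level_of_mem_FL (hSFL _ (hφ k))
    exact finite_orbit L hLf
  let T : Set (LaurentSeries Qb) := ⋃ k, {y | ∃ τ ∈ H, galS τ (φ k) = y}
  have hT : T.Finite := Set.finite_iUnion fun k => (hfin k).subset (by
    rintro _ ⟨τ, -, rfl⟩
    exact ⟨τ, rfl⟩)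
  let W : Submodule Qb (LaurentSeries Qb) := Submodule.span Qb T
  have hWS : W ≤ S := Submodule.span_le.2 (by
    intro y hy
    obtain ⟨k, τ, hτ, rfl⟩ := Set.mem_iUnion.1 hy
    exact hS τ hτ _ (hφ k))
  have hWfin : Module.Finite Qb W := FiniteDimensional.span_of_finite Qb hT
  have hWst : ∀ τ ∈ (H : Set GQ), ∀ f ∈ W, galS τ f ∈ W := by
    intro σ hσ f hf
    induction hf using Submodule.span_induction with
    | mem x hx =>
      obtain ⟨k, τ, hτ, rfl⟩ := Set.mem_iUnion.1 hx
      apply Submodule.subset_span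
      exact Set.mem_iUnion.2 ⟨k, σ * τ, H.mul_mem hσ hτ, galS_mul σ τ _⟩
    | zero => rw [map_zero]; exact W.zero_mem
    | add x y _ _ hx hy => rw [map_add]; exact W.add_mem hx hy
    | smul a x _ hx => rw [galS_smul]; exact W.smul_mem _ hx
  have hsp := span_fixed W hWfin hWst
  have hG : Submodule.span Qb {f | f ∈ W ∧ FixS (H : Set GQ) f} = W :=
    le_antisymm (Submodule.span_le.2 fun f hf => hf.1) hsp
  have hfg : (Submodule.span Qb {f | f ∈ W ∧ FixS (H : Set GQ) f}).FG := by
    rw [hG]
    exact Submodule.fg_span hT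
  obtain ⟨s', hs', hspan⟩ := (Submodule.fg_span_iff_fg_span_finset_subset _).1 hfg
  have hφW : ∀ k, φ k ∈ Submodule.span Qb (s' : Set (LaurentSeries Qb)) := by
    intro k
    rw [← hspan, hG]
    apply Submodule.subset_span
    exact Set.mem_iUnion.2 ⟨k, 1, H.one_mem, galS_one _⟩
  choose f hf using fun k => Submodule.mem_span_finset'.1 (hφW k)
  refine ⟨s'.card, fun a => (s'.equivFin.symm a : LaurentSeries Qb),
    fun k a => f k (s'.equivFin.symm a), fun a => ?_, fun k => ?_⟩
  · have := hs' (s'.equivFin.symm a).2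
    exact ⟨hWS this.1, this.2⟩
  · rw [← hf k, ← Equiv.sum_comp s'.equivFin.symm]
    exact Finset.sum_congr rfl fun a _ => (HahnSeries.C_mul_eq_smul).symm

end Fermat.Agent.CAR.DESC
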