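import Fermat.Agent.GAL.KL.BasicInt

/-!
# CAR / DESC / HG-a : on the generic fibre `I_t(w)^n · w = B_t`  (package DESC-HGa; abstract KL language, `L` algebraically closed)
-/

set_option autoImplicit false

namespace Fermat.Agent.CAR.DESC

open Polynomial Fermat.Agent.GAL.KL

variable {L F : Type*} [Field L] [Field F] [Algebra L F] {t : F}

/-- polynomials without a common zero generate the unit ideal of `L[X]`, `L` algebraically closed. -/
theorem hGa_span_eq_top [IsAlgClosed L] (P : L → L[X]) (hP : ∀ c : L, (P c).eval c ≠ 0) :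
    Ideal.span (Set.range P) = ⊤ := by
  by_contra hJ
  set J : Ideal L[X] := Ideal.span (Set.range P) with hJdef
  set g := Submodule.IsPrincipal.generator J with hg
  have hmem : ∀ c, P c ∈ J := fun c => Ideal.subset_span ⟨c, rfl⟩
  have hdvd : ∀ c, g ∣ P c := fun c => (Submodule.IsPrincipal.mem_iff_generator_dvd J).1 (hmem c)
  have hg0 : g ≠ 0 := by
    intro h0
    have := hdvd 0
    rw [h0, zero_dvd_iff] at this
    exact hP 0 (by rw [this, eval_zero])
  have hdeg : g.degree ≠ 0 := by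
    intro hd
    have hu : IsUnit g := Polynomial.isUnit_iff_degree_eq_zero.2 hd
    apply hJ
    rw [← Ideal.span_singleton_generator J]
    exact Ideal.span_singleton_eq_top.2 hu
  obtain ⟨c, hc⟩ := IsAlgClosed.exists_root g hdeg
  obtain ⟨r, hr⟩ := hdvd c
  apply hP c
  rw [hr, eval_mul, hc.eq_zero, zero_mul]

theorem hGa_prod_ite {n : ℕ} (hn : 0 < n) (b x : F) :
    ∏ j : Fin n, (if (j : ℕ) = 0 then b * x else x) = b * x ^ n := by
  obtain ⟨n', rfl⟩ : ∃ n', n = n' + 1 := ⟨n - 1, by omega⟩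
  rw [Fin.prod_univ_succ]
  simp only [Fin.val_zero, if_true, Fin.val_succ, Nat.succ_ne_zero, if_false, Finset.prod_const,
    Finset.card_univ, Fintype.card_fin]
  ring

/-- PROOF.  `choose z Q hz hQ h1 h2 using hloc`  (`Q c (c) ≠ 0`, `aeval t (Q c) * (z c ^ n * w)` and `aeval t (Q c) * (z c ^ n * w)⁻¹` integral).
(1) `J := Ideal.span (Set.range fun c => Q c ^ (n + 1)) = ⊤` in `L[X]`: otherwise `J ≤ 𝔪` maximal; `L[X]` is a PID, `𝔪 = (p)`, `p` irreducible, so of degree one
(`IsAlgClosed.degree_eq_one_of_irreducible`) with a root `c` (`IsAlgClosed.exists_root`); `p ∣ Q c ^ (n+1)` gives `Q c (c) = 0`.  [Simplest: if `J ≠ ⊤`, its generator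
`g` (`IsPrincipal.generator`) is not a unit, hence has a root `c` (`IsAlgClosed.exists_root`, degree `≠ 0`; `g ≠ 0` since `Q c ≠ 0`), and `g ∣ Q c ^ (n+1)`.]
(2) `1 = ∑_{c ∈ s} a c * Q c ^ (n+1)` (`Finsupp.mem_span_range_iff_exists_finsupp` / `Submodule.mem_span_range_iff_exists_fun` after restricting to a finset;
`Ideal.mem_span_range_iff_exists_fun` needs a Fintype index: use `Submodule.mem_span_set'` or `mem_span_finset`).  Enumerate `s` by `Fin m` (`s.equivFin`).
(3) `φ₀ c := aeval t (Q c) * z c ∈ II`: `φ₀^n w = (aeval t (Q c))^(n-1) * (aeval t (Q c) * (z c^n w))`; `b c := aeval t (a c) * (aeval t (Q c) * (z c ^ n * w)⁻¹)` is integral;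
`φ k j := if j = ⟨0, hn⟩ then b c_k * φ₀ c_k else φ₀ c_k` (`II.mul`).  `∏ j, φ k j = b c * φ₀ c ^ n` (`Finset.prod_ite_eq`-style: `Fin.prod_univ_succ` after `n = n' + 1`), and
`b c * φ₀ c ^ n * w = aeval t (a c * Q c ^ (n+1))` (`z c ^ n * w ≠ 0`, `field_simp`).  Sum: `aeval t 1 = 1`. -/
theorem exists_sum_prod [IsAlgClosed L] {n : ℕ} (hn : 0 < n) {w : F} (hw : w ≠ 0)
    (hloc : ∀ c : L, LocPow L t n w c) :
    ∃ (m : ℕ) (φ : Fin m → Fin n → F), (∀ k j, φ k j ∈ II L t n w) ∧ (∑ k, ∏ j, φ k j) * w = 1 := by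
  classical
  choose z Q hz hQ h1 h2 using hloc
  have htop : Ideal.span (Set.range fun c => Q c ^ (n + 1)) = ⊤ :=
    hGa_span_eq_top (fun c => Q c ^ (n + 1)) (fun c => by
      rw [eval_pow]
      exact pow_ne_zero _ (hQ c))
  have h1mem : (1 : L[X]) ∈ Ideal.span (Set.range fun c => Q c ^ (n + 1)) := by
    rw [htop]
    exact Submodule.mem_top
  obtain ⟨a, ha⟩ := Finsupp.mem_ideal_span_range_iff_exists_finsupp.1 h1mem
  -- the local sections
  have hφ₀ : ∀ c, aeval t (Q c) * z c ∈ II L t n w := by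
    intro c
    change IsInt L t ((aeval t (Q c) * z c) ^ n * w)
    have e : (aeval t (Q c) * z c) ^ n * w
        = aeval t (Q c) ^ (n - 1) * (aeval t (Q c) * (z c ^ n * w)) := by
      obtain ⟨n', rfl⟩ : ∃ n', n = n' + 1 := ⟨n - 1, by omega⟩
      rw [Nat.add_sub_cancel, mul_pow, pow_succ (aeval t (Q c)) n']
      ring
    rw [e]
    exact ((IsInt.aeval (Q c)).pow _).mul (h1 c)
  have hb : ∀ c, IsInt L t (aeval t (a c) * (aeval t (Q c) * (z c ^ n * w)⁻¹)) :=
    fun c => (IsInt.aeval (a c)).mul (h2 c)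
  have hkey : ∀ c, aeval t (a c) * (aeval t (Q c) * (z c ^ n * w)⁻¹) *
      (aeval t (Q c) * z c) ^ n * w = aeval t (a c * Q c ^ (n + 1)) := by
    intro c
    have hne : z c ^ n * w ≠ 0 := mul_ne_zero (pow_ne_zero _ (hz c)) hw
    rw [map_mul, map_pow, mul_pow]
    have e : aeval t (a c) * (aeval t (Q c) * (z c ^ n * w)⁻¹) * (aeval t (Q c) ^ n * z c ^ n) * w
        = aeval t (a c) * aeval t (Q c) ^ (n + 1) * ((z c ^ n * w)⁻¹ * (z c ^ n * w)) := by
      ring
    rw [e, inv_mul_cancel₀ hne, mul_one]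
  let e := a.support.equivFin.symm
  refine ⟨a.support.card, fun k j => if (j : ℕ) = 0 then
      aeval t (a (e k)) * (aeval t (Q (e k)) * (z (e k) ^ n * w)⁻¹) * (aeval t (Q (e k)) * z (e k))
      else aeval t (Q (e k)) * z (e k), ?_, ?_⟩
  · intro k j
    dsimp only
    split_ifs
    · exact II.mul (hb _) (hφ₀ _)
    · exact hφ₀ _
  · simp only [hGa_prod_ite hn]
    rw [Finset.sum_mul]
    simp only [hkey]
    rw [← map_sum]
    have hs : ∑ k : Fin a.support.card, a (e k) * Q (e k) ^ (n + 1) = 1 := by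
      rw [← ha, Finsupp.sum]
      rw [e.sum_comp (fun x : a.support => a x * Q x ^ (n + 1))]
      exact Finset.sum_coe_sort a.support (fun c => a c * Q c ^ (n + 1))
    rw [hs, map_one]

end Fermat.Agent.CAR.DESC
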