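import Fermat.Agent.GAL.KNC.A.Fin

/-!
# CAR / DESC / N4 : a ring of integral elements over `O[X]` in a finite extension (char. 0) is noetherian  (package DESC-N4; Mathlib algebra)
-/

set_option autoImplicit false

namespace Fermat.Agent.CAR.DESC

open Polynomial Fermat.Agent.GAL.KNC

/-- PROOF.  `O[X]` is noetherian (`Polynomial.isNoetherianRing`) and integrally closed (PID ⇒ UFD ⇒ `O[X]` UFD ⇒ integrally closed: instances
`Polynomial.uniqueFactorizationMonoid`, `UniqueFactorizationMonoid.instIsIntegrallyClosed`).  `KNC.intSub_fg i hi hfd` gives `g : Fin m → E` generating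
`intSub i ⊇ B` over `O[X]`.  `letI := i.toAlgebra` (`E` is an `O[X]`-module); `M := Submodule.span O[X] (Set.range g)` is a noetherian `O[X]`-module
(`isNoetherian_of_fg_of_noetherian` / `isNoetherian_span_of_finite`).  For an ideal `J` of `B` the set `J' := {(x : E) | x ∈ J}` is an `O[X]`-submodule of `E` (`hiB`)
contained in `M` (`hB`, `mem_intSub`), hence f.g. over `O[X]` (`IsNoetherian` of `M`, `Submodule.fg_of_le`‑type: `isNoetherian_submodule`), say by `x₁ … x_r ∈ J`;
then `J = span_B {x_k}` because `i p ∈ B`.  `isNoetherianRing_iff_ideal_fg`. -/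
theorem isNoetherianRing_of_integral {O E : Type*} [CommRing O] [IsDomain O] [IsPrincipalIdealRing O]
    [Field E] [CharZero E] (i : O[X] →+* E) (hi : Function.Injective i)
    (hfd : FiniteDimensional (Subfield.closure (Set.range i)) E) (B : Subring E)
    (hiB : ∀ p, i p ∈ B) (hB : ∀ z ∈ B, i.IsIntegralElem z) : IsNoetherianRing B := by
  obtain ⟨m, g, -, hg⟩ := intSub_fg i hi hfd
  let _ : Algebra O[X] E := i.toAlgebra
  let _ : Algebra O[X] B := (i.codRestrict B hiB).toAlgebra
  have hN : IsNoetherian O[X] (Submodule.span O[X] (Set.range g)) :=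
    isNoetherian_span_of_finite O[X] (Set.finite_range g)
  let j : B →ₗ[O[X]] E :=
    { toFun := fun z => (z : E)
      map_add' := fun _ _ => rfl
      map_smul' := fun _ _ => rfl }
  have hj : ∀ z : B, j z ∈ Submodule.span O[X] (Set.range g) := by
    intro z
    obtain ⟨c, hc⟩ := hg z ((mem_intSub i _).mpr (hB z z.2))
    show (z : E) ∈ _
    rw [hc]
    refine Submodule.sum_mem _ fun l _ => ?_
    exact Submodule.smul_mem _ (c l) (Submodule.subset_span ⟨l, rfl⟩)
  have hinj : Function.Injective (j.codRestrict _ hj) := by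
    intro a b hab
    have h1 : ((j.codRestrict _ hj a : Submodule.span O[X] (Set.range g)) : E)
        = ((j.codRestrict _ hj b : Submodule.span O[X] (Set.range g)) : E) := by rw [hab]
    exact Subtype.ext h1
  have hBN : IsNoetherian O[X] B := isNoetherian_of_injective (j.codRestrict _ hj) hinj
  exact isNoetherian_of_tower O[X] hBN

end Fermat.Agent.CAR.DESC
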