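import Fermat.Agent.CAR.DESC.Arith
import Fermat.Agent.CAR.DESC.ChPoly
import Fermat.Agent.CAR.DESC.Noeth
import Fermat.Agent.CAR.DESC.IntO
import Fermat.Agent.CAR.DESC.FinDim
import Fermat.Agent.CAR.BK.Defs

/-!
# CAR / DESC : the chart ring `B_u ⊆ F_K` is the integral closure of `O[u]` and is noetherian  (assembly)
-/

set_option autoImplicit false
noncomputable section

namespace Fermat.Agent.CAR.DESC

open Polynomial Fermat.Agent.GAL Fermat.Agent.GAL.KL Fermat.Agent.DSC Fermat.Agent.CAR.KLm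
  Fermat.Agent.CAR.ON Fermat.Agent.CAR.BK

variable {H : Subgroup GQ} {N : ℕ} {A : ValuationSubring Qb} {Γ₀ I : Type*}
  [LinearOrderedCommGroupWithZero Γ₀] [Fintype I]

/-- elements of `B_u` are integral over `O[u]`. -/
theorem isIntegralElem_of_mem_Bu {v : Idx I → Valuation (FL Qb N) Γ₀}
    (hvA : ∀ a : Qb, v oo (algebraMap Qb (FL Qb N) a) ≤ 1 ↔ a ∈ A)
    (hHA : ∀ τ ∈ H, ∀ a ∈ A, τ a ∈ A) (u : EF H N) (S : Setup Qb v (u : FL Qb N)) {d : ℕ}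
    (β : Fin d → FL Qb N) (hβ : ONm Qb v oo (u : FL Qb N) β) (hβs : Spans Qb (u : FL Qb N) β)
    (z : EF H N) (hz : z ∈ Bu Qb (EF H N) v (u : FL Qb N)) : (iO H A u).IsIntegralElem z := by
  obtain ⟨f, hf, hfA, h0⟩ := exists_monic_of_NN_le S β hβ hβs hz.1 hz.2
  exact isIntegralElem_iO A hHA u z f hf (fun i j => (hvA _).1 (hfA i j)) h0

/-- `O[u] ⊆ B_u`. -/
theorem iO_mem_Bu {v : Idx I → Valuation (FL Qb N) Γ₀}
    (hvA : ∀ a : Qb, v oo (algebraMap Qb (FL Qb N) a) ≤ 1 ↔ a ∈ A)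
    (u : EF H N) (S : Setup Qb v (u : FL Qb N)) (p : (OH H A)[X]) :
    iO H A u p ∈ Bu Qb (EF H N) v (u : FL Qb N) := by
  refine ⟨isInt_of_isIntegralElem_iO A u _ (iO H A u).isIntegralElem_map, fun i => ?_⟩
  rw [coe_iO, S.G i]
  intro m
  rw [S.eqL i oo, hvA]
  simp only [upO, coe_mapRingHom, coeff_map]
  exact (p.coeff m).2

/-- **`B_u` is noetherian.** -/
theorem isNoetherianRing_Bu {v : Idx I → Valuation (FL Qb N) Γ₀}
    (hvA : ∀ a : Qb, v oo (algebraMap Qb (FL Qb N) a) ≤ 1 ↔ a ∈ A)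
    (hHA : ∀ τ ∈ H, ∀ a ∈ A, τ a ∈ A) {π : Qb} (hπ : IsUnif A H π) (u : EF H N)
    (S : Setup Qb v (u : FL Qb N)) {d : ℕ} (β : Fin d → FL Qb N)
    (hβ : ONm Qb v oo (u : FL Qb N) β) (hβs : Spans Qb (u : FL Qb N) β) :
    IsNoetherianRing (Bu Qb (EF H N) v (u : FL Qb N)) := by
  have := isDVR_OH hπ
  have hu : ∀ p : Qb[X], aeval (u : FL Qb N) p = 0 → p = 0 := (S.G oo).inj
  exact isNoetherianRing_of_integral (iO H A u) (iO_injective A u hu)
    (finiteDimensional_iO A u hu β hβs) _ (iO_mem_Bu hvA u S)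
    (isIntegralElem_of_mem_Bu hvA hHA u S β hβ hβs)

end Fermat.Agent.CAR.DESC
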