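import Fermat.Agent.CAR.DESC.Gens
import Fermat.Agent.CAR.DESC.IntO
import Fermat.Agent.GAL.KLC.Defs

/-!
# CAR / DESC / R : `dim_K (W ∩ F_K) = dim_ℚ̄ W` for an `H`-stable finite dimensional subspace `W` of `FL ℚ̄ N`;  `LL` over `K`  (package DESC-R)
-/

set_option autoImplicit false
noncomputable section

namespace Fermat.Agent.CAR.DESC

open ModularCurve Polynomial Fermat.Agent.GAL Fermat.Agent.GAL.KL Fermat.Agent.GAL.KLC Fermat.Agent.DSC

variable (H : Subgroup GQ) {N : ℕ}

/-- `W ∩ E` as a `K`-subspace of `E`. -/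
def resK (W : Submodule Qb (FL Qb N)) : Submodule (EH H) (EF H N) where
  carrier := {z | (z : FL Qb N) ∈ W}
  add_mem' := fun ha hb => W.add_mem ha hb
  zero_mem' := W.zero_mem
  smul_mem' := fun c z hz => by
    have e : ((c • z : EF H N) : FL Qb N) = (c : Qb) • (z : FL Qb N) := by
      rw [Algebra.smul_def, Algebra.smul_def]; rfl
    show ((c • z : EF H N) : FL Qb N) ∈ W
    rw [e]
    exact W.smul_mem _ hz

variable {H}

theorem mem_resK {W : Submodule Qb (FL Qb N)} {z : EF H N} : z ∈ resK H W ↔ (z : FL Qb N) ∈ W :=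
  Iff.rfl

/-- the coercion `FL ℚ̄ N → ℚ̄((q))` as a `ℚ̄`-linear map. -/
def rankCoeL (N : ℕ) : FL Qb N →ₗ[Qb] LaurentSeries Qb where
  toFun z := (z : LaurentSeries Qb)
  map_add' _ _ := rfl
  map_smul' c z := by
    show ((c • z : FL Qb N) : LaurentSeries Qb) = c • (z : LaurentSeries Qb)
    rw [Algebra.smul_def, ← HahnSeries.C_mul_eq_smul, ← coe_algebraMap_FL (N := N)]
    rfl

theorem rankCoeL_apply (z : FL Qb N) : rankCoeL N z = (z : LaurentSeries Qb) := rfl

theorem rankCoeL_injective : Function.Injective (rankCoeL N) := fun _ _ h => Subtype.ext h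

theorem rank_coe_smul (c : EH H) (z : EF H N) :
    ((c • z : EF H N) : FL Qb N) = (c : Qb) • (z : FL Qb N) := by
  rw [Algebra.smul_def, Algebra.smul_def]; rfl

theorem rank_coe_sum {ι : Type*} (s : Finset ι) (f : ι → EF H N) :
    ((∑ i ∈ s, f i : EF H N) : FL Qb N) = ∑ i ∈ s, (f i : FL Qb N) :=
  map_sum (EF H N).subtype f s

/-- a `K`-independent family of `E` is `ℚ̄`-independent in `FL ℚ̄ N`. -/
theorem rank_linearIndependent {s : ℕ} (e : Fin s → EF H N) (he : LinearIndependent (EH H) e) :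
    LinearIndependent Qb (fun i => (e i : FL Qb N)) := by
  rw [Fintype.linearIndependent_iff] at he ⊢
  intro g hg
  have h1 : ∑ k, HahnSeries.C (g k) * ((e k : FL Qb N) : LaurentSeries Qb) = 0 := by
    have h2 := congrArg (rankCoeL N) hg
    rw [map_sum, map_zero] at h2
    rw [← h2]
    refine Finset.sum_congr rfl fun k _ => ?_
    rw [map_smul, HahnSeries.C_mul_eq_smul]
    rfl
  have key := indep_of_fixed (H := (H : Set GQ))
    (fun k => ((e k : FL Qb N) : LaurentSeries Qb)) (fun k => (e k).2) ?_ g h1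
  · exact fun i => congrFun key i
  · intro c hc h0
    have h3 := he (fun k => (⟨c k, fixC_iff_mem_EH.1 (hc k)⟩ : EH H)) (by
      apply Subtype.ext
      apply rankCoeL_injective
      rw [rank_coe_sum, map_sum]
      have hz : rankCoeL N (((0 : EF H N) : FL Qb N)) = 0 := map_zero _
      rw [hz, ← h0]
      refine Finset.sum_congr rfl fun k _ => ?_
      rw [rank_coe_smul, map_smul, HahnSeries.C_mul_eq_smul]
      rfl)
    funext k
    exact congrArg Subtype.val (h3 k)

theorem rank_card_le (W : Submodule Qb (FL Qb N)) (hfin : Module.Finite Qb W)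
    (t : Finset (resK H W)) (ht : LinearIndependent (EH H) (fun i : t => (i : resK H W))) :
    t.card ≤ Module.finrank Qb W := by
  classical
  have h1 : LinearIndependent (EH H) (fun i : Fin t.card => ((t.equivFin.symm i : t) : resK H W)) :=
    ht.comp _ t.equivFin.symm.injective
  have h2 : LinearIndependent (EH H)
      (fun i : Fin t.card => (((t.equivFin.symm i : t) : resK H W) : EF H N)) :=
    h1.map' (resK H W).subtype (Submodule.ker_subtype _)
  have h3 := rank_linearIndependent _ h2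
  have h4 : LinearIndependent Qb (fun i : Fin t.card =>
      (⟨((((t.equivFin.symm i : t) : resK H W) : EF H N) : FL Qb N),
        ((t.equivFin.symm i : t) : resK H W).2⟩ : W)) := by
    apply LinearIndependent.of_comp W.subtype
    exact h3
  have h5 := h4.fintype_card_le_finrank
  rwa [Fintype.card_fin] at h5

theorem rank_le_span (W : Submodule Qb (FL Qb N)) (hfin : Module.Finite Qb W)
    (hW : ∀ τ ∈ H, ∀ z ∈ W, ∀ z' : FL Qb N, (z' : LaurentSeries Qb) = galS τ z → z' ∈ W)
    {d : ℕ} (b : Module.Basis (Fin d) (EH H) (resK H W)) :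
    W ≤ Submodule.span Qb (Set.range fun i => (((b i : resK H W) : EF H N) : FL Qb N)) := by
  set U : Submodule Qb (FL Qb N) :=
    Submodule.span Qb (Set.range fun i => (((b i : resK H W) : EF H N) : FL Qb N)) with hU
  have hS : ∀ τ ∈ (H : Set GQ), ∀ f ∈ W.map (rankCoeL N), galS τ f ∈ W.map (rankCoeL N) := by
    rintro τ hτ _ ⟨z, hz, rfl⟩
    exact ⟨⟨galS τ z, galS_mem_FL τ z.2⟩, hW τ hτ z hz _ rfl, rfl⟩
  have hspan := span_fixed (H := (H : Set GQ)) (W.map (rankCoeL N)) (Module.Finite.map W _) hS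
  intro z hz
  have h1 : rankCoeL N z ∈ U.map (rankCoeL N) := by
    refine (hspan.trans ?_) (Submodule.mem_map_of_mem hz)
    rw [Submodule.span_le]
    rintro _ ⟨⟨z₀, hz₀, rfl⟩, hfix⟩
    refine Submodule.mem_map_of_mem ?_
    let e₀ : resK H W := ⟨⟨z₀, hfix⟩, hz₀⟩
    have h2 := congrArg (fun x : resK H W => ((x : EF H N) : FL Qb N)) (b.sum_repr e₀)
    simp only [Submodule.coe_sum, rank_coe_sum, Submodule.coe_smul, rank_coe_smul] at h2
    have h3 : z₀ = ∑ i, ((b.repr e₀ i : EH H) : Qb) • (((b i : resK H W) : EF H N) : FL Qb N) :=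
      h2.symm
    rw [h3]
    exact Submodule.sum_mem _ fun i _ => Submodule.smul_mem _ _
      (Submodule.subset_span ⟨i, rfl⟩)
  obtain ⟨y, hy, hyz⟩ := h1
  rwa [← rankCoeL_injective hyz]

theorem rank_finrank_le (W : Submodule Qb (FL Qb N)) (hfin : Module.Finite Qb W)
    (hW : ∀ τ ∈ H, ∀ z ∈ W, ∀ z' : FL Qb N, (z' : LaurentSeries Qb) = galS τ z → z' ∈ W)
    (hfinK : Module.Finite (EH H) (resK H W)) :
    Module.finrank Qb W ≤ Module.finrank (EH H) (resK H W) := by
  have hfree : Module.Free (EH H) (resK H W) := Module.Free.of_divisionRing _ _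
  have hWU := rank_le_span W hfin hW (Module.finBasis (EH H) (resK H W))
  have hfU : Module.Finite Qb (Submodule.span Qb (Set.range fun i =>
      ((((Module.finBasis (EH H) (resK H W)) i : resK H W) : EF H N) : FL Qb N))) :=
    FiniteDimensional.span_of_finite Qb (Set.finite_range _)
  calc Module.finrank Qb W ≤ _ := Submodule.finrank_mono hWU
    _ ≤ Fintype.card (Fin (Module.finrank (EH H) (resK H W))) := finrank_range_le_card _
    _ = Module.finrank (EH H) (resK H W) := Fintype.card_fin _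

/-- PROOF.  `r := finrank ℚ̄ W`, `b` a basis of `W`.
(≥) `S := W.map (coercion to ℚ̄((q)))` (a `ℚ̄`-subspace of `ℚ̄((q))`; the coercion `(FL ℚ̄ N).val.toLinearMap`) is stable under `H` (`hW`; `galS τ z ∈ FL`: `coeffMap_mem_laurentBaseChange`).
`exists_fixed_gens S` applied to `b`: the fixed vectors `ψ a ∈ S` span `W` over `ℚ̄`; extract `r` of them which are `ℚ̄`-independent (`exists_linearIndependent` / `Module.Basis.ofSpan`-style:
`Submodule.exists_fun_fin_finrank_span_eq`-free: a spanning finite family contains a basis: `Module.Basis.extractFrom…`, `exists_linearIndependent'`); they are elements of `resK H W`, a fortiori `K`-independent.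
(≤ and finiteness) a `K`-independent family `e : Fin s → resK H W` is `ℚ̄`-independent in `W` (`indep_of_fixed`; `c • z ↔ C c * z`, `coe_algebraMap_FL`), so `s ≤ r`:
`Module.rank K (resK H W) ≤ r` (`rank_le`), so finite (`Module.rank_lt_aleph0_iff`) and `finrank ≤ r`. -/
theorem finrank_resK (W : Submodule Qb (FL Qb N)) (hfin : Module.Finite Qb W)
    (hW : ∀ τ ∈ H, ∀ z ∈ W, ∀ z' : FL Qb N, (z' : LaurentSeries Qb) = galS τ z → z' ∈ W) :
    Module.Finite (EH H) (resK H W) ∧
      Module.finrank (EH H) (resK H W) = Module.finrank Qb W := by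
  have hrank : Module.rank (EH H) (resK H W) ≤ (Module.finrank Qb W : ℕ) :=
    rank_le (rank_card_le W hfin)
  have hfinK : Module.Finite (EH H) (resK H W) :=
    Module.rank_lt_aleph0_iff.mp (lt_of_le_of_lt hrank Cardinal.natCast_lt_aleph0)
  exact ⟨hfinK, le_antisymm (Module.finrank_le_of_rank_le hrank) (rank_finrank_le W hfin hW hfinK)⟩

/-- PROOF: `mem_LL`, `isInt_EH_iff` for `(u, z)` and for `(u⁻¹, u⁻¹ ^ a * z)` (coercions of `⁻¹`, `^`, `*` are `rfl`). -/
theorem resK_LL (u : EF H N) (a : ℕ) : resK H (LL Qb (u : FL Qb N) a) = LL (EH H) u a := by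
  ext z
  rw [mem_resK, mem_LL, mem_LL, isInt_EH_iff u z, isInt_EH_iff u⁻¹ (u⁻¹ ^ a * z)]
  rfl

/-- PROOF: `isInt_gal τ` with `u' = u` (fixed), for both conditions of `mem_LL`. -/
theorem LL_stable (u : EF H N) (a : ℕ) {τ : GQ} (hτ : τ ∈ H) {z : FL Qb N}
    (hz : z ∈ LL Qb (u : FL Qb N) a) {z' : FL Qb N} (h : (z' : LaurentSeries Qb) = galS τ z) :
    z' ∈ LL Qb (u : FL Qb N) a := by
  have hu : ((u : FL Qb N) : LaurentSeries Qb) = galS τ ((u : FL Qb N) : LaurentSeries Qb) :=
    (u.2 τ hτ).symm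
  have hu' : (((u : FL Qb N)⁻¹ : FL Qb N) : LaurentSeries Qb)
      = galS τ (((u : FL Qb N)⁻¹ : FL Qb N) : LaurentSeries Qb) := by
    show ((u : FL Qb N) : LaurentSeries Qb)⁻¹ = galS τ (((u : FL Qb N) : LaurentSeries Qb)⁻¹)
    rw [map_inv₀, ← hu]
  rw [mem_LL] at hz ⊢
  refine ⟨isInt_gal τ hu h hz.1, isInt_gal τ hu' ?_ hz.2⟩
  show (((u : FL Qb N)⁻¹ : FL Qb N) : LaurentSeries Qb) ^ a * (z' : LaurentSeries Qb)
    = galS τ ((((u : FL Qb N)⁻¹ : FL Qb N) : LaurentSeries Qb) ^ a * (z : LaurentSeries Qb))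
  rw [map_mul, map_pow, ← hu', h]

/-- **`dim_K L_K(a (u)_∞) = dim_ℚ̄ L(a (u)_∞)`.** -/
theorem finrank_LL_EH (u : EF H N) (a : ℕ) (hfin : Module.Finite Qb (LL Qb (u : FL Qb N) a)) :
    Module.Finite (EH H) (LL (EH H) u a) ∧
      Module.finrank (EH H) (LL (EH H) u a) = Module.finrank Qb (LL Qb (u : FL Qb N) a) := by
  rw [← resK_LL]
  exact finrank_resK _ hfin fun τ hτ z hz z' h => LL_stable u a hτ hz h

end Fermat.Agent.CAR.DESC
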